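import Fermat.Statements.S02

set_option autoImplicit false
open FreyPackage

namespace Fermat.Agent.S02

/-- Core case: `gcd a b = 1`, `b` even, then a Frey package exists. -/
theorem frey_of_even_b {a b c : ℤ} (ha : a ≠ 0) (hb : b ≠ 0) (hc : c ≠ 0) {p : ℕ} (pp : p.Prime)
    (hp5 : 5 ≤ p) (H : a ^ p + b ^ p = c ^ p) (hgcd : gcd a b = 1) (hb2 : (2 : ℤ) ∣ b) :
    Nonempty FreyPackage := by
  have p_odd : Odd p := pp.odd_of_ne_two (by omega)
  have hb2' : (b : ZMod 2) = 0 := (ZMod.intCast_zmod_eq_zero_iff_dvd b 2).2 hb2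
  -- `a` is odd
  have ha_odd : ¬ (2 : ℤ) ∣ a := by
    intro h2a
    have h2 : (2 : ℤ) ∣ gcd a b := dvd_gcd h2a hb2
    rw [hgcd] at h2
    exact absurd h2 (by decide)
  have hmod : a % 4 = 1 ∨ a % 4 = 3 := by
    have : ¬ a % 2 = 0 := fun h => ha_odd (Int.dvd_of_emod_eq_zero h)
    omega
  rcases hmod with h1 | h3
  · -- negate everything
    refine ⟨⟨-a, -b, -c, neg_ne_zero.2 ha, neg_ne_zero.2 hb, neg_ne_zero.2 hc, p, pp, hp5, ?_, ?_,
      ?_, ?_⟩⟩
    · rw [p_odd.neg_pow, p_odd.neg_pow, p_odd.neg_pow, ← H]; ring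
    · rw [gcd_neg, neg_gcd]; exact hgcd
    · have : ((-a : ℤ) : ZMod 4) = ((3 : ℤ) : ZMod 4) := by
        rw [ZMod.intCast_eq_intCast_iff_dvd_sub]
        exact Int.dvd_of_emod_eq_zero (by omega)
      simpa using this
    · simpa using hb2'
  · refine ⟨⟨a, b, c, ha, hb, hc, p, pp, hp5, H, hgcd, ?_, hb2'⟩⟩
    have : ((a : ℤ) : ZMod 4) = ((3 : ℤ) : ZMod 4) := by
      rw [ZMod.intCast_eq_intCast_iff_dvd_sub]
      exact Int.dvd_of_emod_eq_zero (by omega)
    simpa using this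

/-- Coprime case. -/
theorem frey_of_coprime {a b c : ℤ} (ha : a ≠ 0) (hb : b ≠ 0) (hc : c ≠ 0) {p : ℕ} (pp : p.Prime)
    (hp5 : 5 ≤ p) (H : a ^ p + b ^ p = c ^ p) (hgcd : gcd a b = 1) :
    Nonempty FreyPackage := by
  have p_odd : Odd p := pp.odd_of_ne_two (by omega)
  have hp0 : 0 < p := by omega
  by_cases hb2 : (2 : ℤ) ∣ b
  · exact frey_of_even_b ha hb hc pp hp5 H hgcd hb2
  by_cases ha2 : (2 : ℤ) ∣ a
  · exact frey_of_even_b hb ha hc pp hp5 (by rw [add_comm]; exact H)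
      (by rw [gcd_comm]; exact hgcd) ha2
  -- both odd, so `c` is even
  have hc2 : (2 : ℤ) ∣ c := by
    have h2 : Prime (2 : ℤ) := Int.prime_two
    apply h2.dvd_of_dvd_pow (n := p)
    rw [← H]
    have hao : Odd a := by
      rcases Int.even_or_odd a with h | h
      · exact absurd (even_iff_two_dvd.1 h) ha2
      · exact h
    have hbo : Odd b := by
      rcases Int.even_or_odd b with h | h
      · exact absurd (even_iff_two_dvd.1 h) hb2
      · exact h
    exact even_iff_two_dvd.1 ((hao.pow).add_odd (hbo.pow))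
  -- use a^p + (-c)^p = (-b)^p
  refine frey_of_even_b (a := a) (b := -c) (c := -b) ha (neg_ne_zero.2 hc) (neg_ne_zero.2 hb) pp
    hp5 ?_ ?_ ((dvd_neg).2 hc2)
  · rw [p_odd.neg_pow, p_odd.neg_pow, ← H]; ring
  · rw [gcd_neg, ← FreyPackage.gcdab_eq_gcdac hp0 H]; exact hgcd

theorem result (a b c : ℤ) (ha : a ≠ 0) (hb : b ≠ 0) (hc : c ≠ 0) (p : ℕ) (pp : p.Prime) (hp5 : 5 ≤ p) (H : a ^ p + b ^ p = c ^ p) : Nonempty FreyPackage := by
  by_contra hno
  have hp0 : p ≠ 0 := by omega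
  have key : FermatLastTheoremWith ℤ p := by
    refine fermatLastTheoremWith_of_fermatLastTheoremWith_coprime
      (fun a b c ha hb hc hgcd H => hno ?_)
    refine frey_of_coprime ha hb hc pp hp5 H ?_
    -- gcd a b = 1 from gcd {a,b,c} = 1
    have hcop : IsCoprime a b := by
      refine isCoprime_of_prime_dvd ?_ (fun q hq hqa hqb => hq.not_dvd_one ?_)
      · rintro ⟨rfl, -⟩; exact ha rfl
      · rw [← hgcd]
        refine Finset.dvd_gcd_iff.mpr fun x hx => ?_
        simp only [Finset.mem_insert, Finset.mem_singleton] at hx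
        have hqc : q ∣ c := by
          apply hq.dvd_of_dvd_pow (n := p)
          rw [← H]
          exact dvd_add (dvd_pow hqa hp0) (dvd_pow hqb hp0)
        rcases hx with hx | hx | hx <;> simp only [id_eq, hx, hqa, hqb, hqc]
    have := Int.isCoprime_iff_gcd_eq_one.1 hcop
    show ((Int.gcd a b : ℕ) : ℤ) = 1
    exact_mod_cast this
  exact key a b c ha hb hc H

end Fermat.Agent.S02
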