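-- Statement S05: the mod p Galois representation of the Frey curve is unramified at q ≠ 2, p.
-- Proof: elementary valuation theory on Legendre models (package Fermat/Agent/S05L):
-- the kernel of reduction has no p-torsion, congruent points differ by an element of the kernel
-- of reduction, and a valuation-only component homomorphism handles the multiplicative case.
import Fermat.Statements.S05
import Fermat.Agent.S05L.Frey

set_option autoImplicit false
open WeierstrassCurve WeierstrassCurve.Affine WeierstrassCurve.Affine.Point
open CuspForm ModularFormClass UpperHalfPlane
open FreyPackage

namespace Fermat.Agent.S05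

theorem result (P : FreyPackage) {q : ℕ} (hq : q.Prime) (hq2 : q ≠ 2) (hqp : q ≠ P.p) : P.GaloisRepUnramifiedAt q :=
  Fermat.Agent.S05L.frey_unramified P hq hq2 hqp

end Fermat.Agent.S05
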