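import Fermat.Statements.S08
import Fermat.Prelude.Thm_ModularForm_sturm_bound_Gamma0
import Fermat.Prelude.Thm_CongruenceSubgroup_one_mem_strictPeriods_Gamma0

set_option autoImplicit false
open WeierstrassCurve WeierstrassCurve.Affine WeierstrassCurve.Affine.Point
open CuspForm ModularFormClass UpperHalfPlane
open ModularForm

namespace Fermat.Agent.S08

theorem gamma0_one_index : (CongruenceSubgroup.Gamma0 1).index = 1 := by
  have : CongruenceSubgroup.Gamma0 1 = ⊤ := by
    ext g
    simp only [CongruenceSubgroup.Gamma0_mem, Subgroup.mem_top, iff_true]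
    exact Subsingleton.elim _ _
  rw [this]; simp

theorem cuspForm_eq_zero_of_index_lt (N : ℕ) [NeZero N]
    (hN : (CongruenceSubgroup.Gamma0 N).index < 6)
    (f : CuspForm (CongruenceSubgroup.Gamma0 N) 2) : f = 0 := by
  have h0 : (f : ModularForm (CongruenceSubgroup.Gamma0 N) 2) = 0 := by
    apply ModularForm.sturm_bound_Gamma0 N
    intro n hn
    have h6 : ((2 : ℤ) * ((CongruenceSubgroup.Gamma0 N).index : ℤ)).toNat / 12 = 0 := by
      omega
    rw [h6] at hn
    obtain rfl : n = 0 := by omega
    exact CuspFormClass.qExpansion_coeff_zero f one_pos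
      (CongruenceSubgroup.one_mem_strictPeriods_Gamma0 N)
  ext z
  have := congrArg (fun g : ModularForm (CongruenceSubgroup.Gamma0 N) 2 => g z) h0
  simpa using this

theorem result (f : CuspForm (CongruenceSubgroup.Gamma0 1) 2) : f = 0 :=
  cuspForm_eq_zero_of_index_lt 1 (by rw [gamma0_one_index]; norm_num) f

end Fermat.Agent.S08
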