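-- Statement S13 (row 12): if the mod-p representation of the Frey curve is reducible, it has a
-- Galois-stable cofixed line (Serre).  Elementary proof: Montgomery-ladder division polynomial (M),
-- inertia at p (P), the prime 2 via a node model (T), Minkowski bridge (G), linear algebra (Asm).
import Fermat.Statements.S13
import Fermat.Agent.S13L.Asm

set_option autoImplicit false
open WeierstrassCurve WeierstrassCurve.Affine WeierstrassCurve.Affine.Point
open CuspForm ModularFormClass UpperHalfPlane
open FreyPackage

namespace Fermat.Agent.S13

theorem result (P : FreyPackage) (hred : ¬ GaloisRepIsIrreducible (K := AlgebraicClosure ℚ) ℚ P.freyCurve P.p) : HasGaloisStableCofixedLine (K := AlgebraicClosure ℚ) ℚ P.freyCurve P.p := by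
  exact Fermat.Agent.S13L.asm_main P hred

end Fermat.Agent.S13
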