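import Fermat.Statements.S14
import Fermat.Agent.S14L.Book
import Fermat.Agent.S14L.Class
import Fermat.Agent.S14L.Three

set_option autoImplicit false
open ExtCitation

namespace Fermat.Agent.S14

theorem result {p : ℕ} [Fact p.Prime] (h3 : 3 ≤ p) :
    ExtCitation.ExtVanishingCts p := by
  intro V _ _ _ _ C hV
  by_contra hns
  obtain ⟨K, _, _, ζ, hζ, α, hW, hnot⟩ := Fermat.Agent.S14L.exists_witness p h3 V C hV hns
  apply hnot
  rcases Nat.lt_or_ge p 5 with h5 | h5
  · have hp3 : p = 3 := by
      have hp : p.Prime := Fact.out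
      interval_cases p
      · rfl
      · exact absurd hp (by decide)
    subst hp3
    exact Fermat.Agent.S14L.witness_isPow_three K ζ hζ α hW
  · exact Fermat.Agent.S14L.witness_isPow p h5 K ζ hζ α hW

end Fermat.Agent.S14
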