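/-
S49 helper library: the Deligne–Serre lifting lemma for weight-2 cusp forms on Γ₀(N),
via the Hecke algebra acting on the lattice of forms with integral q-expansion.
-/
import Fermat.Prelude.Def_CuspForm_IntegralLattice
import Fermat.Prelude.Def_FormalHecke_Eigensystem
import Fermat.Prelude.Def_ModularForm_EisensteinChiNegThree
import Fermat.Prelude.Def_FLTPrelim_Modularity
import Fermat.Prelude.Def_CuspForm_HeckeAlgebra
import Fermat.Prelude.Thm_CuspForm_intLattice_fg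
import Fermat.Prelude.Thm_CuspForm_mem_intLattice_of_mem_heckeAlgebra
import Fermat.Prelude.Thm_ModularFormClass_qCoeff_heckeT
import Fermat.Prelude.Thm_ModularFormClass_qCoeff_heckeU
import Fermat.Prelude.Thm_CongruenceSubgroup_one_mem_strictPeriods_Gamma0

set_option autoImplicit false

namespace Fermat.Agent.S49Aux


open scoped IsMulCommutative in
/-- Lemma B: a prime of a finite-dimensional commutative ℂ-algebra is the kernel of a character. -/
theorem exists_character_of_prime {A : Type*} [CommRing A] [Algebra ℂ A] [FiniteDimensional ℂ A]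
    (P : Ideal A) [hP : P.IsPrime] :
    ∃ χ : A →ₐ[ℂ] ℂ, ∀ a : A, χ a = 0 ↔ a ∈ P := by
  have : IsDomain (A ⧸ P) := Ideal.Quotient.isDomain P
  have : Module.Finite ℂ (A ⧸ P) := Module.Finite.of_surjective
    (Ideal.Quotient.mkₐ ℂ P).toLinearMap (Ideal.Quotient.mkₐ_surjective ℂ P)
  have : Algebra.IsIntegral ℂ (A ⧸ P) := Algebra.IsIntegral.of_finite ℂ (A ⧸ P)
  have hbij : Function.Bijective (algebraMap ℂ (A ⧸ P)) :=
    IsAlgClosed.algebraMap_bijective_of_isIntegral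
  let e : ℂ ≃ₐ[ℂ] (A ⧸ P) := AlgEquiv.ofBijective (Algebra.ofId ℂ (A ⧸ P)) hbij
  refine ⟨(e.symm : (A ⧸ P) →ₐ[ℂ] ℂ).comp (Ideal.Quotient.mkₐ ℂ P), fun a => ?_⟩
  simp only [AlgHom.coe_comp, Function.comp_apply, Ideal.Quotient.mkₐ_eq_mk]
  rw [← Ideal.Quotient.eq_zero_iff_mem]
  exact map_eq_zero_iff _ e.symm.injective

open scoped IsMulCommutative in
/-- Lemma E: simultaneous eigenvector for a commutative subalgebra avoiding a multiplicative set. -/
theorem exists_eigenvector_avoiding {V : Type*} [AddCommGroup V] [Module ℂ V] [FiniteDimensional ℂ V]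
    (A : Subalgebra ℂ (Module.End ℂ V)) [IsMulCommutative A]
    (M : Submonoid A) (hM : (0 : A) ∉ M) :
    ∃ (v : V) (χ : A →ₐ[ℂ] ℂ), v ≠ 0 ∧ (∀ a : A, (a : Module.End ℂ V) v = χ a • v) ∧
      ∀ m ∈ M, χ m ≠ 0 := by
  classical
  have hdisj : Disjoint ((⊥ : Ideal A) : Set A) (M : Set A) := by
    rw [Set.disjoint_left]
    intro x hx hxM
    have : x = 0 := by simpa using hx
    exact hM (this ▸ hxM)
  obtain ⟨P, hPprime, -, hPM⟩ := Ideal.exists_le_prime_disjoint (⊥ : Ideal A) M hdisj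
  obtain ⟨Q, hQmin, hQP⟩ := Ideal.exists_minimalPrimes_le (show (⊥ : Ideal A) ≤ P from bot_le)
  have hQM : Disjoint (Q : Set A) (M : Set A) := Set.disjoint_of_subset_left hQP hPM
  have hann : Module.annihilator A V = ⊥ := by
    rw [eq_bot_iff]
    intro a ha
    rw [Module.mem_annihilator] at ha
    rw [Ideal.mem_bot]
    apply Subtype.ext
    apply LinearMap.ext
    intro v
    exact ha v
  have hfinA : Module.Finite ℂ A := inferInstance
  have hnoeth : IsNoetherianRing A :=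
    isNoetherian_of_tower ℂ (isNoetherian_of_isNoetherianRing_of_finite ℂ A)
  have hfin : Module.Finite A V := Module.Finite.of_restrictScalars_finite ℂ A V
  have hass : Q ∈ associatedPrimes A V := by
    apply Module.associatedPrimes.minimalPrimes_annihilator_subset_associatedPrimes A V
    rw [hann]; exact hQmin
  have hQprime : Q.IsPrime := hass.isPrime
  obtain ⟨-, v, hv⟩ := (isAssociatedPrime_iff).mp hass
  obtain ⟨χ, hχ⟩ := exists_character_of_prime Q
  have hkill : ∀ a : A, a ∈ Q → (a : Module.End ℂ V) v = 0 := by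
    intro a ha
    rw [hv] at ha
    have := (Submodule.mem_colon_singleton).mp ha
    have h0 : a • v = 0 := by simpa using this
    exact h0
  refine ⟨v, χ, ?_, ?_, ?_⟩
  · rintro rfl
    apply hQprime.ne_top
    rw [hv, eq_top_iff]
    intro a _
    rw [Submodule.mem_colon_singleton]
    simp
  · intro a
    have h1 : a - algebraMap ℂ A (χ a) ∈ Q := by
      rw [← hχ]
      simp
    have h2 := hkill _ h1
    simp only [Subalgebra.coe_sub, Subalgebra.coe_algebraMap, LinearMap.sub_apply,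
      Module.algebraMap_end_apply] at h2
    exact sub_eq_zero.mp h2
  · intro m hm h0
    rw [hχ] at h0
    exact Set.disjoint_left.mp hQM h0 hm


open CuspForm EisensteinWeightOne CongruenceSubgroup ModularFormClass
open P2MW.S_CuspForm_intLattice_fg.W3WsD

/-- formal multiplicativity from the eigensystem relations -/
theorem formal_mul_of_coprime {R : Type*} [CommRing R] {e c : ℕ → R}
    (h : FormalHecke.IsEigensystem e c) :
    ∀ m n : ℕ, m.Coprime n → c (m * n) = c m * c n := by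
  intro m
  induction m using Nat.strong_induction_on with
  | _ m ih =>
    intro n hmn
    rcases Nat.lt_or_ge m 2 with hm | hm
    · interval_cases m
      · have hn : n = 1 := by simpa using hmn
        subst hn
        rw [h.1, mul_one, mul_one]
      · rw [h.1, one_mul, one_mul]
    · set ℓ := m.minFac with hℓ
      have hℓp : ℓ.Prime := Nat.minFac_prime (by omega)
      obtain ⟨m', hm'⟩ : ℓ ∣ m := Nat.minFac_dvd m
      have hm'pos : 0 < m' := by
        rcases Nat.eq_zero_or_pos m' with h0 | h0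
        · subst h0; omega
        · exact h0
      have hm'lt : m' < m := by
        rw [hm']
        exact lt_mul_of_one_lt_left hm'pos hℓp.one_lt
      have hcop' : m'.Coprime n := Nat.Coprime.coprime_dvd_left ⟨ℓ, by rw [hm', mul_comm]⟩ hmn
      have hℓn : ¬ ℓ ∣ n := by
        intro hd
        have : ℓ ∣ Nat.gcd m n := Nat.dvd_gcd (Nat.minFac_dvd m) hd
        rw [hmn] at this
        exact hℓp.one_lt.ne' (Nat.dvd_one.mp this)
      have e1 := h.2 ℓ hℓp (m' * n)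
      have e2 := h.2 ℓ hℓp m'
      have hdvd : ℓ ∣ m' * n ↔ ℓ ∣ m' := by
        rw [hℓp.dvd_mul]
        exact ⟨fun h => h.resolve_right hℓn, Or.inl⟩
      rw [hm', mul_assoc]
      by_cases hd : ℓ ∣ m'
      · rw [if_pos (hdvd.mpr hd)] at e1
        rw [if_pos hd] at e2
        obtain ⟨m'', hm''⟩ := hd
        have hm''lt : m'' < m := by
          have : m'' ≤ m' := by
            rw [hm'']; exact Nat.le_mul_of_pos_left _ hℓp.pos
          omega
        have hcop'' : m''.Coprime n := Nat.Coprime.coprime_dvd_left ⟨ℓ, by rw [hm'', mul_comm]⟩ hcop'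
        have hdiv1 : m' * n / ℓ = m'' * n := by
          rw [hm'', mul_assoc, Nat.mul_div_cancel_left _ hℓp.pos]
        have hdiv2 : m' / ℓ = m'' := by
          rw [hm'', Nat.mul_div_cancel_left _ hℓp.pos]
        rw [hdiv1, ih m'' hm''lt n hcop'', ih m' hm'lt n hcop'] at e1
        rw [hdiv2] at e2
        have e1' : c (ℓ * (m' * n)) = c ℓ * (c m' * c n) - e ℓ * (c m'' * c n) := by
          rw [← e1]; ring
        have e2' : c (ℓ * m') = c ℓ * c m' - e ℓ * c m'' := by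
          rw [← e2]; ring
        rw [e1', e2']; ring
      · rw [if_neg (fun hh => hd (hdvd.mp hh))] at e1
        rw [if_neg hd] at e2
        rw [ih m' hm'lt n hcop'] at e1
        simp only [mul_zero, add_zero] at e1 e2
        rw [e1, e2]; ring

variable {N : ℕ}

theorem hΓ0 (N : ℕ) : (1 : ℝ) ∈ (Subgroup.map (Matrix.SpecialLinearGroup.mapGL ℝ)
    (CongruenceSubgroup.Gamma0 N)).strictPeriods :=
  CongruenceSubgroup.one_mem_strictPeriods_Gamma0 N

theorem qc_add (f g : CuspForm (Gamma0 N) 2) (n : ℕ) :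
    qCoeff ⇑(f + g) n = qCoeff ⇑f n + qCoeff ⇑g n := qCoeff_add f g n

theorem qc_smul (c : ℂ) (f : CuspForm (Gamma0 N) 2) (n : ℕ) :
    qCoeff ⇑(c • f) n = c * qCoeff ⇑f n := by
  have h1 : ⇑(c • f) = c • ⇑f := by
    ext z
    simp
  simp only [qCoeff, h1]
  rw [ModularForm.qExpansion_smul one_pos (hΓ0 N) c f]
  simp

theorem qc_neg (f : CuspForm (Gamma0 N) 2) (n : ℕ) :
    qCoeff ⇑(-f) n = - qCoeff ⇑f n := by
  have : -f = (-1 : ℂ) • f := by simp
  rw [this, qc_smul]; ring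

theorem qc_sub (f g : CuspForm (Gamma0 N) 2) (n : ℕ) :
    qCoeff ⇑(f - g) n = qCoeff ⇑f n - qCoeff ⇑g n := by
  rw [sub_eq_add_neg, qc_add, qc_neg]; ring

theorem qc_zero_coeff (f : CuspForm (Gamma0 N) 2) : qCoeff ⇑f 0 = 0 := by
  simp only [qCoeff]
  exact CuspFormClass.qExpansion_coeff_zero f one_pos (hΓ0 N)

theorem qc_T [NeZero N] {ℓ : ℕ} (hℓ : ℓ.Prime) (hℓN : ¬ ℓ ∣ N) (f : CuspForm (Gamma0 N) 2) (n : ℕ) :
    qCoeff ⇑(heckeTLin 2 hℓ hℓN f) n
      = qCoeff ⇑f (n * ℓ) + if ℓ ∣ n then (ℓ : ℂ) * qCoeff ⇑f (n / ℓ) else 0 := by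
  rw [CuspForm.coe_heckeTLin_apply, ModularFormClass.qCoeff_heckeT f (hΓ0 N) hℓ.ne_zero,
    ModularForm.coeffHeckeT_apply]
  norm_num

theorem qc_U [NeZero N] {q : ℕ} (hqN : q ∣ N) (hq : q ≠ 0) (f : CuspForm (Gamma0 N) 2) (n : ℕ) :
    qCoeff ⇑(heckeULin 2 hqN f) n = qCoeff ⇑f (n * q) := by
  rw [CuspForm.coe_heckeULin_apply, ModularFormClass.qCoeff_heckeU f (hΓ0 N) hq,
    ModularForm.coeffHeckeU_apply]

theorem eq_zero_of_qc [NeZero N] (f : CuspForm (Gamma0 N) 2) (h : ∀ n, qCoeff ⇑f n = 0) : f = 0 := by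
  apply trunc_injective N 2
  rw [map_zero]
  funext i
  exact h i


theorem finiteDimensional_of_hasIntegralBasis [NeZero N] (h : CuspForm.HasIntegralBasis N) :
    FiniteDimensional ℂ (CuspForm (Gamma0 N) 2) := by
  obtain ⟨s, hs⟩ := CuspForm.intLattice_fg N 2
  refine ⟨⟨s, ?_⟩⟩
  rw [eq_top_iff, ← h]
  apply Submodule.span_le.mpr
  intro f hf
  have hfL : f ∈ CuspForm.intLattice N 2 := (mem_intLattice_iff f).mpr (fun n => by
    obtain ⟨m, hm⟩ := Subring.mem_bot.mp (hf n)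
    exact ⟨m, hm.symm⟩)
  rw [← hs] at hfL
  exact Submodule.span_subset_span ℤ ℂ _ hfL

theorem span_intLattice_eq_top (h : CuspForm.HasIntegralBasis N) :
    Submodule.span ℂ ((CuspForm.intLattice N 2 : Submodule ℤ (CuspForm (Gamma0 N) 2)) :
      Set (CuspForm (Gamma0 N) 2)) = ⊤ := by
  rw [eq_top_iff, ← h]
  apply Submodule.span_mono
  intro f hf
  exact (mem_intLattice_iff f).mpr (fun n => by
    obtain ⟨m, hm⟩ := Subring.mem_bot.mp (hf n)
    exact ⟨m, hm.symm⟩)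

/-- An eigenvalue of an endomorphism preserving the integral lattice is integral over `ℤ`. -/
theorem eigenvalue_isIntegral_of_preserves [NeZero N] (h : CuspForm.HasIntegralBasis N)
    (t : Module.End ℂ (CuspForm (Gamma0 N) 2))
    (ht : ∀ f ∈ CuspForm.intLattice N 2, t f ∈ CuspForm.intLattice N 2)
    {v : CuspForm (Gamma0 N) 2} {μ : ℂ} (hv : v ≠ 0) (htv : t v = μ • v) : IsIntegral ℤ μ := by
  classical
  set L := CuspForm.intLattice N 2 with hL
  have hfin : Module.Finite ℤ L := Module.Finite.iff_fg.mpr (CuspForm.intLattice_fg N 2)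
  let tL : Module.End ℤ L := (t.restrictScalars ℤ).restrict ht
  obtain ⟨p, hpmonic, hp⟩ := LinearMap.exists_monic_and_aeval_eq_zero ℤ tL
  have key : ∀ q : Polynomial ℤ, ∀ f : L,
      (Polynomial.aeval t (q.map (Int.castRingHom ℂ))) (f : CuspForm (Gamma0 N) 2)
      = ((Polynomial.aeval tL q) f : L) := by
    intro q
    induction q using Polynomial.induction_on with
    | C a =>
      intro f
      simp
    | add p q hp hq =>
      intro f
      simp [hp f, hq f]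
    | monomial n a ih =>
      intro f
      have e1 : Polynomial.aeval t ((Polynomial.C a * Polynomial.X ^ (n + 1)).map (Int.castRingHom ℂ))
          = Polynomial.aeval t ((Polynomial.C a * Polynomial.X ^ n).map (Int.castRingHom ℂ)) * t := by
        rw [pow_succ, ← mul_assoc, Polynomial.map_mul, map_mul, Polynomial.map_X, Polynomial.aeval_X]
      have e2 : Polynomial.aeval tL (Polynomial.C a * Polynomial.X ^ (n + 1))
          = Polynomial.aeval tL (Polynomial.C a * Polynomial.X ^ n) * tL := by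
        rw [pow_succ, ← mul_assoc, map_mul, Polynomial.aeval_X]
      rw [e1, e2, Module.End.mul_apply, Module.End.mul_apply]
      exact ih (tL f)
  have hzero : Polynomial.aeval t (p.map (Int.castRingHom ℂ)) = 0 := by
    apply LinearMap.ext_on (span_intLattice_eq_top h)
    intro f hf
    have := key p ⟨f, hf⟩
    rw [hp] at this
    simpa using this
  have hev : Module.End.HasEigenvector t μ v :=
    ⟨Module.End.mem_eigenspace_iff.mpr htv, hv⟩
  have h2 := Module.End.aeval_apply_of_hasEigenvector (p := p.map (Int.castRingHom ℂ)) hev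
  rw [hzero, LinearMap.zero_apply] at h2
  have h3 : (p.map (Int.castRingHom ℂ)).eval μ = 0 := by
    rcases smul_eq_zero.mp h2.symm with h | h
    · exact h
    · exact absurd h hv
  refine ⟨p, hpmonic, ?_⟩
  rw [Polynomial.eval₂_eq_eval_map]
  exact h3

/-- forms all of whose q-coefficients are integers divisible by 3 -/
def IsThreeDiv (g : CuspForm (Gamma0 N) 2) : Prop :=
  ∀ n : ℕ, ∃ m : ℤ, qCoeff ⇑g n = 3 * (m : ℂ)

theorem IsThreeDiv.add {g₁ g₂ : CuspForm (Gamma0 N) 2} (h₁ : IsThreeDiv g₁) (h₂ : IsThreeDiv g₂) :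
    IsThreeDiv (g₁ + g₂) := by
  intro n
  obtain ⟨m₁, hm₁⟩ := h₁ n
  obtain ⟨m₂, hm₂⟩ := h₂ n
  exact ⟨m₁ + m₂, by rw [qc_add, hm₁, hm₂]; push_cast; ring⟩

theorem isThreeDiv_zero : IsThreeDiv (0 : CuspForm (Gamma0 N) 2) := by
  intro n
  exact ⟨0, by rw [qCoeff_zero']; simp⟩

theorem IsThreeDiv.hecke [NeZero N] {g : CuspForm (Gamma0 N) 2} (hg : IsThreeDiv g)
    {t : Module.End ℂ (CuspForm (Gamma0 N) 2)} (ht : t ∈ CuspForm.heckeAlgebra N 2 (∅ : Set ℕ)) :
    IsThreeDiv (t g) := by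
  have hg' : ((3 : ℂ)⁻¹ • g) ∈ CuspForm.intLattice N 2 := by
    rw [mem_intLattice_iff]
    intro n
    obtain ⟨m, hm⟩ := hg n
    exact ⟨m, by rw [qc_smul, hm]; field_simp⟩
  have htg' := CuspForm.mem_intLattice_of_mem_heckeAlgebra (by norm_num : (1 : ℤ) ≤ 2) ht hg'
  rw [mem_intLattice_iff] at htg'
  intro n
  obtain ⟨m, hm⟩ := htg' n
  refine ⟨m, ?_⟩
  have : t g = (3 : ℂ) • t ((3 : ℂ)⁻¹ • g) := by
    rw [map_smul, smul_smul]; norm_num
  rw [this, qc_smul, hm]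

/-- the ideal of Hecke operators killing `f` modulo 3 -/
def nIdeal [NeZero N] (f : CuspForm (Gamma0 N) 2) :
    Ideal (CuspForm.heckeAlgebra N 2 (∅ : Set ℕ)) where
  carrier := {t | IsThreeDiv ((t : Module.End ℂ (CuspForm (Gamma0 N) 2)) f)}
  add_mem' := fun {s t} hs ht => by
    show IsThreeDiv (((s + t : CuspForm.heckeAlgebra N 2 (∅ : Set ℕ)) :
      Module.End ℂ (CuspForm (Gamma0 N) 2)) f)
    rw [Subalgebra.coe_add, LinearMap.add_apply]
    exact IsThreeDiv.add hs ht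
  zero_mem' := by
    show IsThreeDiv (((0 : CuspForm.heckeAlgebra N 2 (∅ : Set ℕ)) :
      Module.End ℂ (CuspForm (Gamma0 N) 2)) f)
    rw [Subalgebra.coe_zero, LinearMap.zero_apply]
    exact isThreeDiv_zero
  smul_mem' := fun s t ht => by
    show IsThreeDiv (((s * t : CuspForm.heckeAlgebra N 2 (∅ : Set ℕ)) :
      Module.End ℂ (CuspForm (Gamma0 N) 2)) f)
    rw [Subalgebra.coe_mul, Module.End.mul_apply]
    exact IsThreeDiv.hecke ht s.2

theorem mem_nIdeal [NeZero N] (f : CuspForm (Gamma0 N) 2) (t : CuspForm.heckeAlgebra N 2 (∅ : Set ℕ)) :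
    t ∈ nIdeal f ↔ IsThreeDiv ((t : Module.End ℂ (CuspForm (Gamma0 N) 2)) f) := Iff.rfl

theorem chi_mod_three (ℓ : ℕ) : ((chiNegThree ℓ : ℤ) : ZMod 3) = (ℓ : ZMod 3) := by
  have h := Nat.div_add_mod ℓ 3
  have hlt := Nat.mod_lt ℓ (by norm_num : 3 > 0)
  have hcast : (ℓ : ZMod 3) = ((ℓ % 3 : ℕ) : ZMod 3) := by
    simp
  rw [hcast]
  unfold chiNegThree
  interval_cases hr : ℓ % 3 <;> simp <;> decide

theorem bridge_coeff (a : ℕ → ℤ) (n : ℕ) :
    (((bridgeProduct a).coeff n : ℤ) : ZMod 3) = (a n : ZMod 3) := by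
  have hE : e1Chi3In ℤ = 1 + 3 * PowerSeries.mk (fun n => if n = 0 then 0 else 2 * sigmaChi n) := by
    ext k
    simp only [e1Chi3In, e1Chi3, PowerSeries.coeff_map, PowerSeries.coeff_mk, map_add,
      PowerSeries.coeff_one]
    rw [show (3 : PowerSeries ℤ) = PowerSeries.C (3 : ℤ) by simp, PowerSeries.coeff_C_mul,
      PowerSeries.coeff_mk]
    split_ifs <;> simp
    ring
  unfold bridgeProduct
  rw [hE, mul_add, mul_one, map_add, PowerSeries.coeff_mk]
  rw [show (3 : PowerSeries ℤ) = PowerSeries.C (3 : ℤ) by simp, ← mul_assoc, mul_comm _ (PowerSeries.C (3:ℤ)),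
    mul_assoc, PowerSeries.coeff_C_mul]
  push_cast
  have : (3 : ZMod 3) = 0 := by decide
  rw [this, zero_mul, add_zero]


section realized

variable [NeZero N] {f : CuspForm (Gamma0 N) 2} {af a : ℕ → ℤ}

theorem gen_T_mem (haf : ∀ n, (af n : ℂ) = qCoeff ⇑f n)
    (h3 : ∀ n, ((af n : ℤ) : ZMod 3) = (a n : ZMod 3))
    (heig : FormalHecke.IsEigensystem
      (fun ℓ => if ℓ ∣ N then 0 else ((chiNegThree ℓ : ℤ) : ℤ)) a)
    {ℓ : ℕ} (hℓ : ℓ.Prime) (hℓN : ¬ ℓ ∣ N) :
    (CuspForm.heckeAlgebra.T hℓ hℓN (Set.notMem_empty ℓ) : CuspForm.heckeAlgebra N 2 (∅ : Set ℕ))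
      - algebraMap ℤ (CuspForm.heckeAlgebra N 2 (∅ : Set ℕ)) (a ℓ) ∈ nIdeal f := by
  rw [mem_nIdeal]
  intro n
  have hcoe : (((CuspForm.heckeAlgebra.T hℓ hℓN (Set.notMem_empty ℓ) :
      CuspForm.heckeAlgebra N 2 (∅ : Set ℕ))
      - algebraMap ℤ (CuspForm.heckeAlgebra N 2 (∅ : Set ℕ)) (a ℓ) :
        CuspForm.heckeAlgebra N 2 (∅ : Set ℕ)) : Module.End ℂ (CuspForm (Gamma0 N) 2)) f
      = heckeTLin 2 hℓ hℓN f - (a ℓ) • f := by
    rw [Subalgebra.coe_sub, CuspForm.heckeAlgebra.coe_T, Subalgebra.coe_algebraMap,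
      LinearMap.sub_apply, Algebra.algebraMap_eq_smul_one, LinearMap.smul_apply,
      Module.End.one_apply]
  rw [hcoe, qc_sub, qc_T, qCoeff_zsmul]
  have e := congrArg (fun z : ℤ => (z : ZMod 3)) (heig.2 ℓ hℓ n)
  simp only [if_neg hℓN] at e
  by_cases hd : ℓ ∣ n
  · rw [if_pos hd] at e ⊢
    have hz : (3 : ℤ) ∣ af (n * ℓ) + (ℓ : ℤ) * af (n / ℓ) - a ℓ * af n := by
      have h0 : ((af (n * ℓ) + (ℓ : ℤ) * af (n / ℓ) - a ℓ * af n : ℤ) : ZMod 3) = 0 := by
        push_cast at e ⊢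
        rw [h3, h3, h3, mul_comm n ℓ, ← chi_mod_three ℓ]
        rw [← e]; ring
      exact_mod_cast (ZMod.intCast_zmod_eq_zero_iff_dvd _ 3).mp h0
    obtain ⟨m, hm⟩ := hz
    refine ⟨m, ?_⟩
    have := congrArg (fun z : ℤ => (z : ℂ)) hm
    push_cast at this
    rw [← haf, ← haf, ← haf]
    exact this
  · rw [if_neg hd] at e ⊢
    have hz : (3 : ℤ) ∣ af (n * ℓ) - a ℓ * af n := by
      have h0 : ((af (n * ℓ) - a ℓ * af n : ℤ) : ZMod 3) = 0 := by
        push_cast at e ⊢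
        rw [h3, h3, mul_comm n ℓ]
        rw [← e]; ring
      exact_mod_cast (ZMod.intCast_zmod_eq_zero_iff_dvd _ 3).mp h0
    obtain ⟨m, hm⟩ := hz
    refine ⟨m, ?_⟩
    have := congrArg (fun z : ℤ => (z : ℂ)) hm
    push_cast at this
    rw [← haf, ← haf, add_zero]
    exact this

theorem gen_U_mem (haf : ∀ n, (af n : ℂ) = qCoeff ⇑f n)
    (h3 : ∀ n, ((af n : ℤ) : ZMod 3) = (a n : ZMod 3))
    (heig : FormalHecke.IsEigensystem
      (fun ℓ => if ℓ ∣ N then 0 else ((chiNegThree ℓ : ℤ) : ℤ)) a)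
    {q : ℕ} (hq : q.Prime) (hqN : q ∣ N) :
    (CuspForm.heckeAlgebra.U hq hqN (Set.notMem_empty q) : CuspForm.heckeAlgebra N 2 (∅ : Set ℕ))
      - algebraMap ℤ (CuspForm.heckeAlgebra N 2 (∅ : Set ℕ)) (a q) ∈ nIdeal f := by
  rw [mem_nIdeal]
  intro n
  have hcoe : (((CuspForm.heckeAlgebra.U hq hqN (Set.notMem_empty q) :
      CuspForm.heckeAlgebra N 2 (∅ : Set ℕ))
      - algebraMap ℤ (CuspForm.heckeAlgebra N 2 (∅ : Set ℕ)) (a q) :
        CuspForm.heckeAlgebra N 2 (∅ : Set ℕ)) : Module.End ℂ (CuspForm (Gamma0 N) 2)) f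
      = heckeULin 2 hqN f - (a q) • f := by
    rw [Subalgebra.coe_sub, CuspForm.heckeAlgebra.coe_U, Subalgebra.coe_algebraMap,
      LinearMap.sub_apply, Algebra.algebraMap_eq_smul_one, LinearMap.smul_apply,
      Module.End.one_apply]
  rw [hcoe, qc_sub, qc_U hqN hq.ne_zero, qCoeff_zsmul]
  have e := congrArg (fun z : ℤ => (z : ZMod 3)) (heig.2 q hq n)
  simp only [if_pos hqN] at e
  have hz : (3 : ℤ) ∣ af (n * q) - a q * af n := by
    have h0 : ((af (n * q) - a q * af n : ℤ) : ZMod 3) = 0 := by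
      push_cast at e ⊢
      rw [h3, h3, mul_comm n q]
      rw [← e]; ring
    exact_mod_cast (ZMod.intCast_zmod_eq_zero_iff_dvd _ 3).mp h0
  obtain ⟨m, hm⟩ := hz
  refine ⟨m, ?_⟩
  have := congrArg (fun z : ℤ => (z : ℂ)) hm
  push_cast at this
  rw [← haf, ← haf]
  exact this

theorem three_mul_mem (haf : ∀ n, (af n : ℂ) = qCoeff ⇑f n) (d : ℤ) :
    algebraMap ℤ (CuspForm.heckeAlgebra N 2 (∅ : Set ℕ)) (3 * d) ∈ nIdeal f := by
  rw [mem_nIdeal]
  intro n
  refine ⟨d * af n, ?_⟩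
  rw [Subalgebra.coe_algebraMap, Algebra.algebraMap_eq_smul_one, LinearMap.smul_apply,
    Module.End.one_apply, qCoeff_zsmul, ← haf]
  push_cast; ring

theorem exists_int_sub_mem (haf : ∀ n, (af n : ℂ) = qCoeff ⇑f n)
    (h3 : ∀ n, ((af n : ℤ) : ZMod 3) = (a n : ZMod 3))
    (heig : FormalHecke.IsEigensystem
      (fun ℓ => if ℓ ∣ N then 0 else ((chiNegThree ℓ : ℤ) : ℤ)) a)
    (t : CuspForm.heckeAlgebra N 2 (∅ : Set ℕ)) :
    ∃ c : ℤ, t - algebraMap ℤ (CuspForm.heckeAlgebra N 2 (∅ : Set ℕ)) c ∈ nIdeal f := by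
  obtain ⟨t, ht⟩ := t
  refine Algebra.adjoin_induction (p := fun t ht => ∃ c : ℤ,
    (⟨t, ht⟩ : CuspForm.heckeAlgebra N 2 (∅ : Set ℕ))
      - algebraMap ℤ (CuspForm.heckeAlgebra N 2 (∅ : Set ℕ)) c ∈ nIdeal f) ?_ ?_ ?_ ?_ ht
  · rintro x (⟨ℓ, hℓ, hℓN, -, rfl⟩ | ⟨q, hqN, hq, -, rfl⟩)
    · exact ⟨a ℓ, gen_T_mem haf h3 heig hℓ hℓN⟩
    · exact ⟨a q, gen_U_mem haf h3 heig hq hqN⟩
  · intro r
    refine ⟨r, ?_⟩
    have : (⟨algebraMap ℤ (Module.End ℂ (CuspForm (Gamma0 N) 2)) r, Subalgebra.algebraMap_mem _ r⟩ :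
        CuspForm.heckeAlgebra N 2 (∅ : Set ℕ))
        = algebraMap ℤ (CuspForm.heckeAlgebra N 2 (∅ : Set ℕ)) r := rfl
    rw [this, sub_self]
    exact Ideal.zero_mem _
  · rintro x y hx hy ⟨c, hc⟩ ⟨d, hd⟩
    refine ⟨c + d, ?_⟩
    have : (⟨x + y, add_mem hx hy⟩ : CuspForm.heckeAlgebra N 2 (∅ : Set ℕ))
        - algebraMap ℤ (CuspForm.heckeAlgebra N 2 (∅ : Set ℕ)) (c + d)
        = ((⟨x, hx⟩ : CuspForm.heckeAlgebra N 2 (∅ : Set ℕ)) - algebraMap ℤ _ c)
          + ((⟨y, hy⟩ : CuspForm.heckeAlgebra N 2 (∅ : Set ℕ)) - algebraMap ℤ _ d) := by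
      rw [map_add]
      have : (⟨x + y, add_mem hx hy⟩ : CuspForm.heckeAlgebra N 2 (∅ : Set ℕ))
        = ⟨x, hx⟩ + ⟨y, hy⟩ := rfl
      rw [this]; ring
    rw [this]
    exact Ideal.add_mem _ hc hd
  · rintro x y hx hy ⟨c, hc⟩ ⟨d, hd⟩
    refine ⟨c * d, ?_⟩
    have : (⟨x * y, mul_mem hx hy⟩ : CuspForm.heckeAlgebra N 2 (∅ : Set ℕ))
        - algebraMap ℤ (CuspForm.heckeAlgebra N 2 (∅ : Set ℕ)) (c * d)
        = (⟨x, hx⟩ : CuspForm.heckeAlgebra N 2 (∅ : Set ℕ)) *
            ((⟨y, hy⟩ : CuspForm.heckeAlgebra N 2 (∅ : Set ℕ)) - algebraMap ℤ _ d)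
          + algebraMap ℤ _ d * ((⟨x, hx⟩ : CuspForm.heckeAlgebra N 2 (∅ : Set ℕ)) - algebraMap ℤ _ c) := by
      rw [map_mul]
      have : (⟨x * y, mul_mem hx hy⟩ : CuspForm.heckeAlgebra N 2 (∅ : Set ℕ))
        = ⟨x, hx⟩ * ⟨y, hy⟩ := rfl
      rw [this]; ring
    rw [this]
    exact Ideal.add_mem _ (Ideal.mul_mem_left _ _ hd) (Ideal.mul_mem_left _ _ hc)


theorem one_not_mem (haf : ∀ n, (af n : ℂ) = qCoeff ⇑f n)
    (h3 : ∀ n, ((af n : ℤ) : ZMod 3) = (a n : ZMod 3))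
    (heig : FormalHecke.IsEigensystem
      (fun ℓ => if ℓ ∣ N then 0 else ((chiNegThree ℓ : ℤ) : ℤ)) a) :
    (1 : CuspForm.heckeAlgebra N 2 (∅ : Set ℕ)) ∉ nIdeal f := by
  rw [mem_nIdeal]
  intro h
  obtain ⟨m, hm⟩ := h 1
  rw [Subalgebra.coe_one, Module.End.one_apply, ← haf] at hm
  have hm' : af 1 = 3 * m := by exact_mod_cast hm
  have := h3 1
  rw [hm', heig.1] at this
  push_cast at this
  have h30 : (3 : ZMod 3) = 0 := by decide
  rw [h30, zero_mul] at this
  exact zero_ne_one this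

theorem nIdeal_isMaximal (haf : ∀ n, (af n : ℂ) = qCoeff ⇑f n)
    (h3 : ∀ n, ((af n : ℤ) : ZMod 3) = (a n : ZMod 3))
    (heig : FormalHecke.IsEigensystem
      (fun ℓ => if ℓ ∣ N then 0 else ((chiNegThree ℓ : ℤ) : ℤ)) a) :
    (nIdeal f).IsMaximal := by
  rw [Ideal.isMaximal_iff]
  refine ⟨one_not_mem haf h3 heig, fun J x hJ hx hxJ => ?_⟩
  obtain ⟨c, hc⟩ := exists_int_sub_mem haf h3 heig x
  have hcJ : algebraMap ℤ (CuspForm.heckeAlgebra N 2 (∅ : Set ℕ)) c ∈ J := by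
    have := J.sub_mem hxJ (hJ hc)
    simpa using this
  have hc3 : ((c : ℤ) : ZMod 3) ≠ 0 := by
    intro h0
    obtain ⟨d, rfl⟩ : (3 : ℤ) ∣ c := by
      exact_mod_cast (ZMod.intCast_zmod_eq_zero_iff_dvd _ 3).mp h0
    apply hx
    have := (nIdeal f).add_mem hc (three_mul_mem haf d)
    simpa using this
  obtain ⟨e, he⟩ : (3 : ℤ) ∣ c * c - 1 := by
    have h0 : ((c * c - 1 : ℤ) : ZMod 3) = 0 := by
      push_cast
      have key : ∀ x : ZMod 3, x ≠ 0 → x * x - 1 = 0 := by decide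
      exact key _ hc3
    exact_mod_cast (ZMod.intCast_zmod_eq_zero_iff_dvd _ 3).mp h0
  have h1 : (1 : CuspForm.heckeAlgebra N 2 (∅ : Set ℕ))
      = algebraMap ℤ (CuspForm.heckeAlgebra N 2 (∅ : Set ℕ)) c * algebraMap ℤ _ c
        - algebraMap ℤ _ (3 * e) := by
    rw [← map_mul, ← map_sub, ← he]
    simp
  rw [h1]
  exact J.sub_mem (J.mul_mem_left _ hcJ) (hJ (three_mul_mem haf e))

end realized


open scoped IsMulCommutative in
/-- simultaneous eigenvector for a commuting set of operators, avoiding a multiplicative set -/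
theorem exists_eigenvector_avoiding' {V : Type*} [AddCommGroup V] [Module ℂ V] [FiniteDimensional ℂ V]
    (T : Set (Module.End ℂ V)) (hcomm : ∀ x ∈ T, ∀ y ∈ T, x * y = y * x)
    (S : Set (Module.End ℂ V)) (hST : S ⊆ T) (h1 : (1 : Module.End ℂ V) ∈ S)
    (hmul : ∀ x ∈ S, ∀ y ∈ S, x * y ∈ S) (h0 : (0 : Module.End ℂ V) ∉ S) :
    ∃ (v : V) (lam : Module.End ℂ V → ℂ), v ≠ 0 ∧ (∀ t ∈ T, t v = lam t • v) ∧
      ∀ s ∈ S, lam s ≠ 0 := by
  classical
  let A := Algebra.adjoin ℂ T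
  haveI : IsMulCommutative A := Algebra.isMulCommutative_adjoin ℂ hcomm
  let M : Submonoid A :=
    { carrier := {x | (x : Module.End ℂ V) ∈ S}
      mul_mem' := fun {x y} hx hy => by
        show ((x * y : A) : Module.End ℂ V) ∈ S
        rw [Subalgebra.coe_mul]; exact hmul _ hx _ hy
      one_mem' := by
        show ((1 : A) : Module.End ℂ V) ∈ S
        rw [Subalgebra.coe_one]; exact h1 }
  have hM : (0 : A) ∉ M := fun h => h0 (by
    have h' : ((0 : A) : Module.End ℂ V) ∈ S := h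
    rwa [Subalgebra.coe_zero] at h')
  obtain ⟨v, χ, hv, hχ, hχM⟩ := exists_eigenvector_avoiding A M hM
  refine ⟨v, fun t => if ht : t ∈ A then χ ⟨t, ht⟩ else 0, hv, ?_, ?_⟩
  · intro t ht
    have htA : t ∈ A := Algebra.subset_adjoin ht
    simp only [dif_pos htA]
    exact hχ ⟨t, htA⟩
  · intro s hs
    have hsA : s ∈ A := Algebra.subset_adjoin (hST hs)
    simp only [dif_pos hsA]
    exact hχM ⟨s, hsA⟩ hs

theorem exists_eigen [NeZero N] (h : CuspForm.HasIntegralBasis N)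
    (𝔫 : Ideal (CuspForm.heckeAlgebra N 2 (∅ : Set ℕ))) [h𝔫 : 𝔫.IsPrime] :
    ∃ (v : CuspForm (Gamma0 N) 2) (lam : CuspForm.heckeAlgebra N 2 (∅ : Set ℕ) →+* ℂ), v ≠ 0 ∧
      (∀ t : CuspForm.heckeAlgebra N 2 (∅ : Set ℕ),
        (t : Module.End ℂ (CuspForm (Gamma0 N) 2)) v = lam t • v) ∧
      (∀ t, lam t = 0 → t ∈ 𝔫) ∧ ∀ t, IsIntegral ℤ (lam t) := by
  haveI := finiteDimensional_of_hasIntegralBasis h
  obtain ⟨v, lam, hv, hlam, hS⟩ := exists_eigenvector_avoiding'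
    ((CuspForm.heckeAlgebra N 2 (∅ : Set ℕ) :
      Subalgebra ℤ (Module.End ℂ (CuspForm (Gamma0 N) 2))) : Set (Module.End ℂ (CuspForm (Gamma0 N) 2)))
    (fun x hx y hy =>
      congrArg Subtype.val (mul_comm (⟨x, hx⟩ : CuspForm.heckeAlgebra N 2 (∅ : Set ℕ)) ⟨y, hy⟩))
    {t | ∃ ht : t ∈ CuspForm.heckeAlgebra N 2 (∅ : Set ℕ),
      (⟨t, ht⟩ : CuspForm.heckeAlgebra N 2 (∅ : Set ℕ)) ∉ 𝔫}
    (fun t ht => ht.1)
    ⟨Subalgebra.one_mem _, fun h1 => h𝔫.ne_top ((Ideal.eq_top_iff_one _).mpr h1)⟩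
    (fun x hx y hy => by
      obtain ⟨hx1, hx2⟩ := hx
      obtain ⟨hy1, hy2⟩ := hy
      refine ⟨mul_mem hx1 hy1, fun hxy => ?_⟩
      have : (⟨x * y, mul_mem hx1 hy1⟩ : CuspForm.heckeAlgebra N 2 (∅ : Set ℕ))
        = ⟨x, hx1⟩ * ⟨y, hy1⟩ := rfl
      rw [this] at hxy
      rcases h𝔫.mem_or_mem hxy with h | h
      · exact hx2 h
      · exact hy2 h)
    (fun h0 => h0.2 𝔫.zero_mem)
  have hinj : ∀ {a b : ℂ}, a • v = b • v → a = b := fun {a b} hab => smul_left_injective ℂ hv hab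
  let lamR : CuspForm.heckeAlgebra N 2 (∅ : Set ℕ) →+* ℂ :=
    { toFun := fun t => lam t.1
      map_one' := by
        apply hinj
        show lam ((1 : CuspForm.heckeAlgebra N 2 (∅ : Set ℕ)) :
          Module.End ℂ (CuspForm (Gamma0 N) 2)) • v = (1 : ℂ) • v
        rw [Subalgebra.coe_one, ← hlam _ (Subalgebra.one_mem _), one_smul, Module.End.one_apply]
      map_mul' := fun s t => by
        apply hinj
        rw [← hlam _ (s * t).2, Subalgebra.coe_mul, Module.End.mul_apply, hlam _ t.2, map_smul,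
          hlam _ s.2, smul_smul, mul_comm]
      map_zero' := by
        apply hinj
        show lam ((0 : CuspForm.heckeAlgebra N 2 (∅ : Set ℕ)) :
          Module.End ℂ (CuspForm (Gamma0 N) 2)) • v = (0 : ℂ) • v
        rw [Subalgebra.coe_zero, ← hlam _ (Subalgebra.zero_mem _), zero_smul, LinearMap.zero_apply]
      map_add' := fun s t => by
        apply hinj
        rw [← hlam _ (s + t).2, Subalgebra.coe_add, LinearMap.add_apply, hlam _ t.2,
          hlam _ s.2, add_smul] }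
  refine ⟨v, lamR, hv, fun t => hlam _ t.2, fun t ht => ?_, fun t => ?_⟩
  · by_contra htn
    exact hS t.1 ⟨t.2, htn⟩ ht
  · exact eigenvalue_isIntegral_of_preserves h t.1
      (fun f hf => CuspForm.mem_intLattice_of_mem_heckeAlgebra (by norm_num) t.2 hf) hv
      (hlam _ t.2)


theorem exists_normalized [NeZero N] {v : CuspForm (Gamma0 N) 2} (hv : v ≠ 0)
    {lam : CuspForm.heckeAlgebra N 2 (∅ : Set ℕ) →+* ℂ}
    (hlam : ∀ t : CuspForm.heckeAlgebra N 2 (∅ : Set ℕ),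
      (t : Module.End ℂ (CuspForm (Gamma0 N) 2)) v = lam t • v) :
    ∃ f : CuspForm (Gamma0 N) 2, f.IsNormalizedEigenform ∧
      ∀ (ℓ : ℕ) (hℓ : ℓ.Prime) (hℓN : ¬ ℓ ∣ N),
        qCoeff ⇑f ℓ = lam (CuspForm.heckeAlgebra.T hℓ hℓN (Set.notMem_empty ℓ)) := by
  set b : ℕ → ℂ := fun n => qCoeff ⇑v n with hb
  have relT : ∀ (ℓ : ℕ) (hℓ : ℓ.Prime) (hℓN : ¬ ℓ ∣ N) (n : ℕ),
      b (n * ℓ) + (if ℓ ∣ n then (ℓ : ℂ) * b (n / ℓ) else 0)
        = lam (CuspForm.heckeAlgebra.T hℓ hℓN (Set.notMem_empty ℓ)) * b n := by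
    intro ℓ hℓ hℓN n
    have := hlam (CuspForm.heckeAlgebra.T hℓ hℓN (Set.notMem_empty ℓ))
    rw [CuspForm.heckeAlgebra.coe_T] at this
    have h2 : qCoeff ⇑(heckeTLin 2 hℓ hℓN v) n
        = qCoeff ⇑(lam (CuspForm.heckeAlgebra.T hℓ hℓN (Set.notMem_empty ℓ)) • v) n := by
      rw [this]
    rw [qc_T, qc_smul] at h2
    exact h2
  have relU : ∀ (q : ℕ) (hq : q.Prime) (hqN : q ∣ N) (n : ℕ),
      b (n * q) = lam (CuspForm.heckeAlgebra.U hq hqN (Set.notMem_empty q)) * b n := by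
    intro q hq hqN n
    have := hlam (CuspForm.heckeAlgebra.U hq hqN (Set.notMem_empty q))
    rw [CuspForm.heckeAlgebra.coe_U] at this
    have h2 : qCoeff ⇑(heckeULin 2 hqN v) n
        = qCoeff ⇑(lam (CuspForm.heckeAlgebra.U hq hqN (Set.notMem_empty q)) • v) n := by
      rw [this]
    rw [qc_U hqN hq.ne_zero, qc_smul] at h2
    exact h2
  have hb1 : b 1 ≠ 0 := by
    intro hb1
    apply hv
    apply eq_zero_of_qc
    intro n
    induction n using Nat.strong_induction_on with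
    | _ n ih =>
      rcases Nat.lt_or_ge n 2 with hn | hn
      · interval_cases n
        · exact qc_zero_coeff v
        · exact hb1
      · have hℓp : (n.minFac).Prime := Nat.minFac_prime (by omega)
        obtain ⟨m, hm⟩ : n.minFac ∣ n := Nat.minFac_dvd n
        have hmpos : 0 < m := by
          rcases Nat.eq_zero_or_pos m with h0 | h0
          · subst h0; omega
          · exact h0
        have hmlt : m < n := by
          conv_rhs => rw [hm]
          exact lt_mul_of_one_lt_left hmpos hℓp.one_lt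
        have hn' : n = m * n.minFac := by rw [mul_comm]; exact hm
        by_cases hN : n.minFac ∣ N
        · have := relU _ hℓp hN m
          rw [← hn'] at this
          show b n = 0
          rw [this, show b m = 0 from ih m hmlt, mul_zero]
        · have := relT _ hℓp hN m
          rw [← hn'] at this
          have hbm : b m = 0 := ih m hmlt
          have hbd : b (m / n.minFac) = 0 := ih _ (lt_of_le_of_lt (Nat.div_le_self _ _) hmlt)
          rw [hbm, hbd, mul_zero, mul_zero, ite_self, add_zero] at this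
          exact this
  set c : ℕ → ℂ := fun n => qCoeff ⇑((b 1)⁻¹ • v) n with hc
  have hcb : ∀ n, c n = (b 1)⁻¹ * b n := fun n => qc_smul _ _ _
  have hE : FormalHecke.IsEigensystem (fun ℓ : ℕ => if ℓ ∣ N then (0 : ℂ) else (ℓ : ℂ)) c := by
    refine ⟨by rw [hcb]; exact inv_mul_cancel₀ hb1, fun ℓ hℓ n => ?_⟩
    by_cases hN : ℓ ∣ N
    · simp only [if_pos hN, zero_mul, add_zero]
      have h1 := relU ℓ hℓ hN n
      have h2 := relU ℓ hℓ hN 1
      rw [one_mul] at h2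
      rw [hcb, hcb, hcb, mul_comm ℓ n, h1, h2]
      field_simp
    · simp only [if_neg hN]
      have h1 := relT ℓ hℓ hN n
      have h2 := relT ℓ hℓ hN 1
      rw [one_mul, if_neg (by simpa using hℓ.one_lt.ne' : ¬ ℓ ∣ 1), add_zero] at h2
      have h1' : b (n * ℓ) = lam (CuspForm.heckeAlgebra.T hℓ hN (Set.notMem_empty ℓ)) * b n
          - (if ℓ ∣ n then (ℓ : ℂ) * b (n / ℓ) else 0) := by
        rw [← h1]; ring
      by_cases hd : ℓ ∣ n
      · simp only [if_pos hd] at h1' ⊢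
        simp only [hcb]
        rw [mul_comm ℓ n, h1', h2]
        field_simp
        ring
      · simp only [if_neg hd] at h1' ⊢
        simp only [hcb]
        rw [mul_comm ℓ n, h1', h2]
        field_simp
        ring
  refine ⟨(b 1)⁻¹ • v, ⟨hE.1, formal_mul_of_coprime hE, ?_, ?_⟩, ?_⟩
  · intro p r hp hpN
    have := hE.2 p hp (p ^ (r + 1))
    simp only [if_neg hpN] at this
    have e1 : p * p ^ (r + 1) = p ^ (r + 2) := by ring
    have e2 : p ^ (r + 1) / p = p ^ r := by rw [pow_succ, Nat.mul_div_cancel _ hp.pos]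
    rw [if_pos (dvd_pow_self p (by omega)), e1, e2] at this
    show c (p ^ (r + 2)) = c p * c (p ^ (r + 1)) - p * c (p ^ r)
    rw [← this]; ring
  · intro p r hp hpN
    have := hE.2 p hp (p ^ (r + 1))
    simp only [if_pos hpN, zero_mul, add_zero] at this
    have e1 : p * p ^ (r + 1) = p ^ (r + 2) := by ring
    rw [e1] at this
    exact this
  · intro ℓ hℓ hℓN
    have h2 := relT ℓ hℓ hℓN 1
    rw [one_mul, if_neg (by simpa using hℓ.one_lt.ne' : ¬ ℓ ∣ 1), add_zero] at h2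
    show c ℓ = _
    rw [hcb, h2]
    field_simp

/-- every element of `ℤ̄` is integral along any ring hom into `ℤ̄` -/
theorem isIntegralElem_integralClosure {R : Type*} [CommRing R] (φ : R →+* integralClosure ℤ ℂ)
    (x : integralClosure ℤ ℂ) : φ.IsIntegralElem x := by
  obtain ⟨p, hp, hpx⟩ := x.2
  refine ⟨p.map (Int.castRingHom R), hp.map _, ?_⟩
  rw [Polynomial.eval₂_map]
  have h1 : φ.comp (Int.castRingHom R) = Int.castRingHom (integralClosure ℤ ℂ) := RingHom.ext_int _ _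
  rw [h1]
  apply Subtype.val_injective
  have h2 := Polynomial.hom_eval₂ p (Int.castRingHom (integralClosure ℤ ℂ))
    ((integralClosure ℤ ℂ).val : integralClosure ℤ ℂ →+* ℂ) x
  have h3 : ((integralClosure ℤ ℂ).val : integralClosure ℤ ℂ →+* ℂ).comp
      (Int.castRingHom (integralClosure ℤ ℂ)) = algebraMap ℤ ℂ := RingHom.ext_int _ _
  rw [h3] at h2
  show ((integralClosure ℤ ℂ).val : integralClosure ℤ ℂ →+* ℂ) _ = _
  rw [h2]
  simpa using hpx

end Fermat.Agent.S49Aux
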