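import Fermat.Statements.S22
import Fermat.Agent.S22.HeckeStable
import Fermat.Agent.S22.LowWeight

set_option autoImplicit false
open CuspForm

namespace Fermat.Agent.S22

theorem result (N : ℕ) [NeZero N] (k : ℤ) (S : Set ℕ) :
    Module.Finite ℤ (CuspForm.heckeAlgebra N k S) := by
  rcases le_or_gt k 0 with hk | hk
  · exact heckeAlgebra_finite_of_weight_nonpos N hk S
  · rcases eq_or_lt_of_le (show (1 : ℤ) ≤ k by omega) with h1 | h1
    · exact heckeAlgebra_finite_of_weight_odd N (by rw [← h1]; exact odd_one) S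
    · obtain ⟨n, rfl⟩ : ∃ n : ℕ, k = (n : ℤ) + 2 := ⟨(k - 2).toNat, by omega⟩
      exact heckeAlgebra_finite_of_weight_add_two N n S

end Fermat.Agent.S22
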