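import Fermat.Statements.S23
import Fermat.Agent.S23.Descent
import Fermat.Agent.S23.Integral

set_option autoImplicit false
open CuspForm

namespace Fermat.Agent.S23

theorem result (N : ℕ) [NeZero N] : CuspForm.HasIntegralStructure N 2 := by
  unfold CuspForm.HasIntegralStructure
  rw [eq_top_iff, ← Fermat.Agent.S23L.span_rational_eq_top N]
  apply Submodule.span_le.mpr
  intro f hf
  obtain ⟨D, hD, hmem⟩ := Fermat.Agent.S23L.exists_nsmul_mem_intLattice N f hf
  have hD' : (D : ℂ) ≠ 0 := by exact_mod_cast hD.ne'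
  have : f = (D : ℂ)⁻¹ • ((D : ℂ) • f) := by rw [smul_smul, inv_mul_cancel₀ hD', one_smul]
  rw [this]
  exact Submodule.smul_mem _ _ (Submodule.subset_span hmem)

end Fermat.Agent.S23
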