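import Fermat.Statements.S21
import Fermat.Agent.S20
import Fermat.Agent.S21L.Primitive
import Fermat.Agent.S21L.Parabolic
import Fermat.Agent.S21L.Injective
import Fermat.Agent.S21L.DimBound

set_option autoImplicit false
open ModularCurve

namespace Fermat.Agent.S21

open ModularCurve.Period CongruenceSubgroup Fermat.Agent.S21L in
theorem aux (N : ℕ) [NeZero N] :
    ∃ pml : CuspForm (Gamma0 N) 2 →ₗ[ℂ] (Additive (Gamma0 N) →+ ℂ),
      ModularCurve.periodHomPair N = LinearMap.coprod
        ((LinearMap.id + charInvolution N ℂ ℂ) ∘ₗ pml)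
        ((LinearMap.id - charInvolution N ℂ ℂ) ∘ₗ pml) ∧
      (∀ f, pml f ∈ parabolicHoms ℂ (Gamma0 N) ℂ) ∧
      (∀ f, pml f + charInvolution N ℂ ℂ (pml f) = 0 → f = 0) ∧
      (∀ f, pml f - charInvolution N ℂ ℂ (pml f) = 0 → f = 0) := by
  obtain ⟨pml, hpml, hdef⟩ := periodHomPair_def N (existsPeriodMapLinear N)
  have hP : ∀ f, pml f = (hasEquivariantPrimitive_prim N f).2.2.1.periodHom := fun f =>
    (hpml f).trans (periodMap_eq_periodHom N f (hasEquivariantPrimitive_prim N f))
  refine ⟨pml, hdef, fun f => ?_, fun f h => ?_, fun f h => ?_⟩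
  · rw [hP f]
    exact periodHom_mem_parabolicHoms N f (hasEquivariantPrimitive_prim N f)
  · rw [hP f] at h
    exact eq_zero_of_periodHom_add N f (hasEquivariantPrimitive_prim N f) h
  · rw [hP f] at h
    exact eq_zero_of_periodHom_sub N f (hasEquivariantPrimitive_prim N f) h

theorem result (N : ℕ) [NeZero N] :
    Function.Injective (ModularCurve.periodHomPair N)
      ∧ LinearMap.range (ModularCurve.periodHomPair N)
          = ModularCurve.Period.parabolicHoms ℂ (CongruenceSubgroup.Gamma0 N) ℂ := by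
  obtain ⟨pml, hdef, hpar, hadd, hsub⟩ := aux N
  set ι := ModularCurve.Period.charInvolution N ℂ ℂ with hι
  have hιι : ∀ ψ, ι (ι ψ) = ψ := fun ψ =>
    ModularCurve.Period.charInvolution_charInvolution N ℂ ℂ ψ
  have happ : ∀ f g, ModularCurve.periodHomPair N (f, g)
      = (pml f + ι (pml f)) + (pml g - ι (pml g)) := by
    intro f g
    rw [hdef]
    simp [LinearMap.coprod_apply]
  have hinj : Function.Injective (ModularCurve.periodHomPair N) := by
    rw [← LinearMap.ker_eq_bot, LinearMap.ker_eq_bot']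
    rintro ⟨f, g⟩ h
    rw [happ] at h
    have h' := congrArg ι h
    rw [map_zero, map_add, map_add, map_sub, hιι, hιι] at h'
    have h1 : pml f + ι (pml f) = 0 := by
      have h2 : (2 : ℂ) • (pml f + ι (pml f)) = 0 := by
        rw [two_smul]
        calc (pml f + ι (pml f)) + (pml f + ι (pml f))
            = ((pml f + ι (pml f)) + (pml g - ι (pml g)))
              + ((ι (pml f) + pml f) + (ι (pml g) - pml g)) := by abel
          _ = 0 := by rw [h, h', add_zero]
      exact (smul_eq_zero.mp h2).resolve_left two_ne_zero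
    have h3 : pml g - ι (pml g) = 0 := by
      rw [h1, zero_add] at h
      exact h
    rw [hadd f h1, hsub g h3]
    rfl
  refine ⟨hinj, ?_⟩
  have hle : LinearMap.range (ModularCurve.periodHomPair N)
      ≤ ModularCurve.Period.parabolicHoms ℂ (CongruenceSubgroup.Gamma0 N) ℂ := by
    rintro _ ⟨⟨f, g⟩, rfl⟩
    rw [happ]
    have hι_mem : ∀ f, ι (pml f) ∈ ModularCurve.Period.parabolicHoms ℂ
        (CongruenceSubgroup.Gamma0 N) ℂ := fun f =>
      ModularCurve.Period.charInvolution_mem_parabolicHoms N ℂ ℂ (hpar f)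
    exact Submodule.add_mem _ (Submodule.add_mem _ (hpar f) (hι_mem f))
      (Submodule.sub_mem _ (hpar g) (hι_mem g))
  have hfd := Fermat.Agent.S21L.finiteDimensional_parabolicHoms N
  -- the source is finite-dimensional, as it injects into a finite-dimensional space
  let L : (CuspForm (CongruenceSubgroup.Gamma0 N) 2 × CuspForm (CongruenceSubgroup.Gamma0 N) 2)
      →ₗ[ℂ] ModularCurve.Period.parabolicHoms ℂ (CongruenceSubgroup.Gamma0 N) ℂ :=
    LinearMap.codRestrict _ (ModularCurve.periodHomPair N) (fun x => hle ⟨x, rfl⟩)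
  have hLinj : Function.Injective L := fun x y hxy => hinj (congrArg Subtype.val hxy)
  have hfd2 : FiniteDimensional ℂ (CuspForm (CongruenceSubgroup.Gamma0 N) 2
      × CuspForm (CongruenceSubgroup.Gamma0 N) 2) := FiniteDimensional.of_injective L hLinj
  have hfd1 : FiniteDimensional ℂ (CuspForm (CongruenceSubgroup.Gamma0 N) 2) :=
    FiniteDimensional.of_injective (LinearMap.inl ℂ _ (CuspForm (CongruenceSubgroup.Gamma0 N) 2))
      LinearMap.inl_injective
  have hdim1 : Module.finrank ℂ (LinearMap.range (ModularCurve.periodHomPair N))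
      = 2 * Module.finrank ℂ (CuspForm (CongruenceSubgroup.Gamma0 N) 2) := by
    rw [LinearMap.finrank_range_of_inj hinj, Module.finrank_prod, two_mul]
  have hdim2 := Fermat.Agent.S21L.finrank_parabolicHoms_le N
  have hS20 := Fermat.Agent.S20.result N
  have hdim3 : Module.finrank ℂ (ModularCurve.Period.parabolicHoms ℂ (CongruenceSubgroup.Gamma0 N) ℂ)
      ≤ Module.finrank ℂ (LinearMap.range (ModularCurve.periodHomPair N)) := by
    rw [hdim1]
    have : (Module.finrank ℂ (ModularCurve.Period.parabolicHoms ℂ (CongruenceSubgroup.Gamma0 N) ℂ) : ℚ)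
        ≤ ((2 * Module.finrank ℂ (CuspForm (CongruenceSubgroup.Gamma0 N) 2) : ℕ) : ℚ) := by
      push_cast
      rw [hS20]
      exact hdim2
    exact_mod_cast this
  exact Submodule.eq_of_le_of_finrank_le hle hdim3

end Fermat.Agent.S21
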