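-- Statement S16 (row 15): Mazur's Eisenstein ideal index  #(𝕋/I) = (p-1)/gcd(p-1,12).
import Fermat.Statements.S16
import Fermat.Agent.S16L.Defs
import Fermat.Agent.S16L.AN
import Fermat.Agent.S16L.UB
import Fermat.Agent.S16L.LB
import Fermat.Agent.S16L.Formal

set_option autoImplicit false
open ModularCurve CuspForm
open ModularCurve

namespace Fermat.Agent.S16

theorem result
    (p : ℕ) [Fact p.Prime] :
    Nat.card (↥(heckeLatticeAlgebra p ∅) ⧸
        Ideal.map ((latticeRestrictHom p ∅).toRingHom.comp (heckeEvalForms p 2))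
          (eisensteinIdeal p)) =
      eisensteinNumerator p := by
  obtain ⟨D⟩ := Fermat.Agent.S16L.exists_traceData p
  exact Fermat.Agent.S16L.card_eq_of_lb_ub p (Fermat.Agent.S16L.lb_core p)
    (fun M hM f c hc hcong => Fermat.Agent.S16L.ub_core p D M hM f c hc hcong)

end Fermat.Agent.S16
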