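import Fermat.Statements.S24
import Fermat.Agent.S20
import Fermat.Agent.X0Bridge.DegW
import Fermat.Agent.X0S24.Final

set_option autoImplicit false
open ModularCurve

namespace Fermat.Agent.S24

theorem result (N : ℕ) [NeZero N]
    [AlgebraicCurve.HasCanonicalDivisor (K := AlgebraicClosure ℚ) (F := ↥(ModularCurve.modularFunctionFieldBar N))] :
    (AlgebraicCurve.genus (AlgebraicClosure ℚ) ↥(ModularCurve.modularFunctionFieldBar N) : ℚ)
      = ModularCurve.genusFormula N := by
  have h20 := Fermat.Agent.S20.result N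
  have hdeg := Fermat.Agent.X0Bridge.deg_W_eq N
  have hg := Fermat.Agent.X0S24.Final.genus_eq N
    (Module.finrank ℂ (CuspForm (CongruenceSubgroup.Gamma0 N) 2)) (by
      have h : ((Fermat.Agent.RRL.PreCurve.deg (Fermat.Agent.X0Fld.datum N).W : ℤ) : ℚ)
          = ((2 * (Module.finrank ℂ (CuspForm (CongruenceSubgroup.Gamma0 N) 2) : ℤ) - 2 : ℤ) : ℚ) := by
        push_cast
        rw [hdeg, ← h20]
      exact_mod_cast h)
  rw [hg, h20]

end Fermat.Agent.S24
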