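-- Statement S49 (row 44): the lifting lemma.  Proof: see `Fermat/Agent/S49Aux.lean`.
import Fermat.Statements.S49
import Fermat.Agent.S49Aux

set_option autoImplicit false
open CuspForm EisensteinWeightOne CongruenceSubgroup ModularFormClass
open FLT FLT.AbstractIntegralStructure

namespace Fermat.Agent.S49

open Fermat.Agent.S49Aux in
theorem result
    {N : ℕ} [NeZero N] (h : CuspForm.HasIntegralBasis N) {a : ℕ → ℤ}
    (heig : FormalHecke.IsEigensystem
      (fun ℓ => if ℓ ∣ N then 0 else ((chiNegThree ℓ : ℤ) : ℤ)) a)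
    (hreal : CuspForm.IsLatticeRealized N a) :
    ∃ (f : CuspForm (Gamma0 N) 2) (_ : f.IsNormalizedEigenform)
      (𝔪' : Ideal (integralClosure ℤ ℂ)), 𝔪'.IsMaximal ∧
      ((3 : ℕ) : integralClosure ℤ ℂ) ∈ 𝔪' ∧
      ∀ (ℓ : ℕ) (_ : ℓ.Prime) (_ : ¬ ℓ ∣ N),
        ∃ c : integralClosure ℤ ℂ, (c : ℂ) = ModularFormClass.qCoeff f ℓ ∧
          c - (a ℓ : integralClosure ℤ ℂ) ∈ 𝔪' := by
  obtain ⟨f₀, -, af, haf, hbr⟩ := hreal
  have h3 : ∀ n, ((af n : ℤ) : ZMod 3) = (a n : ZMod 3) := by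
    intro n
    have h0 := (ZMod.intCast_zmod_eq_zero_iff_dvd (af n - (bridgeProduct a).coeff n) 3).mpr
      (by exact_mod_cast hbr n)
    push_cast at h0
    rw [bridge_coeff] at h0
    exact sub_eq_zero.mp h0
  haveI hmax : (nIdeal f₀).IsMaximal := nIdeal_isMaximal haf h3 heig
  obtain ⟨v, lam, hv, hlam, hker, hint⟩ := exists_eigen h (nIdeal f₀)
  obtain ⟨f, hf, hfℓ⟩ := exists_normalized hv hlam
  let lam' : CuspForm.heckeAlgebra N 2 (∅ : Set ℕ) →+* integralClosure ℤ ℂ :=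
    lam.codRestrict (integralClosure ℤ ℂ) hint
  have hlam' : ∀ t, ((lam' t : integralClosure ℤ ℂ) : ℂ) = lam t := fun t => rfl
  letI : Algebra (CuspForm.heckeAlgebra N 2 (∅ : Set ℕ)) (integralClosure ℤ ℂ) := lam'.toAlgebra
  haveI : Algebra.IsIntegral (CuspForm.heckeAlgebra N 2 (∅ : Set ℕ)) (integralClosure ℤ ℂ) :=
    ⟨fun x => isIntegralElem_integralClosure lam' x⟩
  have hkerle : RingHom.ker (algebraMap (CuspForm.heckeAlgebra N 2 (∅ : Set ℕ))
      (integralClosure ℤ ℂ)) ≤ nIdeal f₀ := by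
    intro t ht
    apply hker
    have h1 : lam' t = 0 := ht
    have h2 := hlam' t
    rw [h1] at h2
    exact h2.symm
  obtain ⟨Q, hQmax, hQ⟩ := Ideal.exists_ideal_over_maximal_of_isIntegral
    (S := integralClosure ℤ ℂ) (nIdeal f₀) hkerle
  have hmemQ : ∀ t ∈ nIdeal f₀, lam' t ∈ Q := by
    intro t ht
    rw [← hQ] at ht
    exact ht
  refine ⟨f, hf, Q, hQmax, ?_, ?_⟩
  · have := hmemQ _ (three_mul_mem haf 1)
    have e3 : lam' (algebraMap ℤ (CuspForm.heckeAlgebra N 2 (∅ : Set ℕ)) (3 * 1))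
        = ((3 : ℕ) : integralClosure ℤ ℂ) := by
      rw [mul_one, eq_intCast (algebraMap ℤ (CuspForm.heckeAlgebra N 2 (∅ : Set ℕ))),
        map_intCast]
      norm_num
    rw [e3] at this
    exact this
  · intro ℓ hℓ hℓN
    refine ⟨lam' (CuspForm.heckeAlgebra.T hℓ hℓN (Set.notMem_empty ℓ)), ?_, ?_⟩
    · rw [hlam', hfℓ ℓ hℓ hℓN]
    · have := hmemQ _ (gen_T_mem haf h3 heig hℓ hℓN)
      rw [map_sub, eq_intCast (algebraMap ℤ (CuspForm.heckeAlgebra N 2 (∅ : Set ℕ))),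
        map_intCast] at this
      exact this

end Fermat.Agent.S49
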