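-- Statement S51 (row 45): a semistable integral Weierstrass curve has irreducible mod-3 or
-- irreducible mod-5 representation.
import Fermat.Statements.S51
import Fermat.Agent.S51.Defs
import Fermat.Agent.S51.Core
import Fermat.Agent.S51.CoreV
import Fermat.Agent.S51.Descent
import Fermat.Agent.S51.Semistable
import Fermat.Agent.S51.Galois

set_option autoImplicit false
open WeierstrassCurve WeierstrassCurve.Affine WeierstrassCurve.Affine.Point
open CuspForm ModularFormClass UpperHalfPlane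

namespace Fermat.Agent.S51

theorem result (W : WeierstrassCurve ℤ) (hΔ : W.Δ ≠ 0) (hW : W.IsSemistableModel) :
    W.ModRepIsIrreducible 3 ∨ W.ModRepIsIrreducible 5 := by
  by_contra hcon
  rw [not_or] at hcon
  obtain ⟨h3, h5⟩ := hcon
  have hΔE : (W.map (Int.castRingHom ℚ)).Δ ≠ 0 := by
    rw [WeierstrassCurve.map_Δ]
    simpa using hΔ
  obtain ⟨x₁, x₂, x₃, hcfg, hx₃, hx12⟩ := exists_cfg (W.map (Int.castRingHom ℚ)) hΔE h3 h5
  set E : WeierstrassCurve ℚ := W.map (Int.castRingHom ℚ) with hE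
  set φ : ℚ →+* AlgebraicClosure ℚ := algebraMap ℚ (AlgebraicClosure ℚ) with hφ
  have hφσ : ∀ (σ : AlgebraicClosure ℚ ≃ₐ[ℚ] AlgebraicClosure ℚ) (q : ℚ), σ (φ q) = φ q :=
    fun σ q => σ.commutes q
  -- `κ` is rational
  obtain ⟨κ, hκ⟩ := rational_of_fixed (kapF x₁ x₂ x₃) (by
    intro σ
    have h1 := map_kapF (σ : AlgebraicClosure ℚ →+* AlgebraicClosure ℚ) x₁ x₂ x₃
    simp only [RingHom.coe_coe] at h1
    rw [h1, hx₃ σ]
    rcases hx12 σ with ⟨h1, h2⟩ | ⟨h1, h2⟩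
    · rw [h1, h2]
    · rw [h1, h2]; exact (kapF_symm x₁ x₂ x₃).symm)
  -- `W` is rational
  obtain ⟨Wq, hWq⟩ := rational_of_fixed (WF (φ E.b₂) (φ E.b₄) (φ E.b₆) x₁ x₂ x₃) (by
    intro σ
    have h1 := map_WF (σ : AlgebraicClosure ℚ →+* AlgebraicClosure ℚ) (φ E.b₂) (φ E.b₄)
      (φ E.b₆) x₁ x₂ x₃
    simp only [RingHom.coe_coe, hφσ] at h1
    rw [h1, hx₃ σ]
    rcases hx12 σ with ⟨h1, h2⟩ | ⟨h1, h2⟩
    · rw [h1, h2]
    · rw [h1, h2]; exact hcfg.W_symm.symm)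
  -- `v` is rational
  obtain ⟨v, hv⟩ := rational_of_fixed (vF (φ E.b₂) (φ E.b₄) (φ E.b₆) (φ E.b₈) x₁ x₂) (by
    intro σ
    have h1 := map_vF (σ : AlgebraicClosure ℚ →+* AlgebraicClosure ℚ) (φ E.b₂) (φ E.b₄)
      (φ E.b₆) (φ E.b₈) x₁ x₂
    simp only [RingHom.coe_coe, hφσ] at h1
    rw [h1]
    rcases hx12 σ with ⟨h1, h2⟩ | ⟨h1, h2⟩
    · rw [h1, h2]
    · rw [h1, h2]; exact (vF_symm _ _ _ _ x₁ x₂).symm)
  -- the rational point on `X₀(15)`
  have hWsq : Wq ^ 2 = κ * (κ - 4) * (4 * κ + 9) := by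
    apply φ.injective
    have := hcfg.W_sq
    rw [← hWq, ← hκ] at this
    simpa using this
  have hκ0 : κ ≠ 0 := by
    intro h0
    apply hcfg.kap_ne_zero
    rw [← hκ, h0, _root_.map_zero]
  -- the value of `v`
  have hvval : v = -10 ∨ v = -25 / 2 ∨ v = -25 / 8 ∨ v = -40 := by
    obtain ⟨hv4, hv94, hv9, hv1⟩ := hcfg.v_of_kap
    rw [← hκ, ← hv] at hv4 hv94 hv9 hv1
    rcases kap_cases κ Wq hWsq with h | h | h | h | h
    · exact absurd h hκ0
    · right; left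
      apply φ.injective
      rw [hv4 (by rw [h]; simp)]; simp
    · right; right; left
      apply φ.injective
      rw [hv94 (by rw [h]; simp)]; simp
    · right; right; right
      apply φ.injective
      rw [hv9 (by rw [h]; simp)]; simp
    · left
      apply φ.injective
      rw [hv1 (by rw [h]; simp)]; simp
  -- the `j`-invariant relation over `ℚ`
  have hc4 : ((W.c₄ : ℤ) : ℚ) ^ 3 * v = (v ^ 2 + 10 * v + 5) ^ 3 * ((W.Δ : ℤ) : ℚ) := by
    have h1 := hcfg.c4_cube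
    rw [← hv] at h1
    have hc : ((W.c₄ : ℤ) : ℚ) = E.b₂ ^ 2 - 24 * E.b₄ := by
      have : E.c₄ = ((W.c₄ : ℤ) : ℚ) := by rw [hE, WeierstrassCurve.map_c₄]; rfl
      rw [← this]; rfl
    have hd : ((W.Δ : ℤ) : ℚ) = Dl E.b₂ E.b₄ E.b₆ E.b₈ := by
      have : E.Δ = ((W.Δ : ℤ) : ℚ) := by rw [hE, WeierstrassCurve.map_Δ]; rfl
      rw [← this]; rfl
    rw [hc, hd]
    apply φ.injective
    simpa [Dl] using h1
  exact not_semistable_of_v W hΔ hW v hvval hc4

end Fermat.Agent.S51
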