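import Fermat.Statements.S53
import Fermat.Agent.S53.Universal
import Fermat.Agent.S53.Tangent

set_option autoImplicit false
set_option autoImplicit false
open GaloisRep

namespace Fermat.Agent.S53

theorem result
    (𝒪 : Type) [CommRing 𝒪] [IsDomain 𝒪] [IsDiscreteValuationRing 𝒪]
    [IsAdicComplete (IsLocalRing.maximalIdeal 𝒪) 𝒪] [Finite (IsLocalRing.ResidueField 𝒪)]
    (ρbar : ResidualGaloisRep (IsLocalRing.ResidueField 𝒪))
    (𝒟 : ∀ ⦃A : Type⦄ [CommRing A] [IsLocalRing A] [Algebra 𝒪 A], GaloisRepAdic A → Prop)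
    (habs : ρbar.IsAbsolutelyIrreducible)
    (h𝒟 : GaloisRep.IsDeformationCondition 𝒪 𝒟)
    (hbar : 𝒟 (GaloisRepAdic.ofResidualGaloisRep ρbar))
    (hfin : GaloisRep.TangentFinite 𝒪 ρbar 𝒟) :
    Nonempty (GaloisRep.DeformationRingData 𝒪 ρbar 𝒟) := by
  obtain ⟨F, hF⟩ := exists_good_frame 𝒪 ρbar habs
  obtain ⟨n, gs, is, js, hsep⟩ := exists_separating 𝒪 ρbar 𝒟 hfin F hF
  have hc : ∀ s, ∃ c : 𝒪, IsLocalRing.residue 𝒪 c = F.Mbar (gs s) (is s) (js s) :=
    fun s => IsLocalRing.residue_surjective _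
  choose c hc using hc
  let S : Sep 𝒪 𝒟 F := ⟨n, gs, is, js, c, hc, hsep⟩
  obtain ⟨U⟩ := nonempty_univ h𝒟 ρbar hF hbar S
  haveI := U.isLocalHom_algebraMap
  refine ⟨{ R := U.R
            residue_surjective := U.residue_surjective
            absIrr := habs
            ρ := ofMatrix U.M U.matCont
            isOfType := U.cond h𝒟
            residual_isEquiv := hF.residual U.M U.matCont U.isNormLift.1
            universal := ?_ }⟩
  intro A _ _ _ _ _ hlocA hsurj ρA hρA hres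
  let π : A →ₐ[𝒪] IsLocalRing.ResidueField 𝒪 := aug 𝒪 hlocA hsurj
  obtain ⟨M, hM, hnorm, hequiv⟩ := hF.exists_normLift ρA hres
  have hcond : ∀ (B : Type) [CommRing B] [IsLocalRing B] [Algebra 𝒪 B],
      IsArtinianTestAlgebra 𝒪 B → ∀ (f : A →ₐ[𝒪] B), Function.Surjective f →
      ∀ hM' : MatCont (mapHom (f : A →+* B) M), 𝒟 (ofMatrix (mapHom (f : A →+* B) M) hM') := by
    intro B _ _ _ hB f hf hM'
    have hloc : IsLocalHom (f : A →+* B) :=
      isLocalHom_of_algHom (aug 𝒪 hB.isLocalHom hB.residue_surjective) f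
    have h1 := (h𝒟.iff_forall_surjective hlocA hsurj ρA).mp hρA hB f hloc hf
    obtain ⟨e⟩ := hequiv
    exact h𝒟.of_isEquiv hB (isEquiv_trans ⟨e.baseChangeAlong (f : A →+* B) hloc⟩
      (baseChangeAlong_ofMatrix_isEquiv (f : A →+* B) hloc M hM hM')) h1
  obtain ⟨φ, hφ⟩ := U.exists_hom h𝒟 π M hM hnorm hcond
  have key : ∀ (ψ : U.R →ₐ[𝒪] A) (hψ : IsLocalHom (ψ : U.R →+* A)),
      ((ofMatrix U.M U.matCont).baseChangeAlong (ψ : U.R →+* A) hψ).IsEquiv ρA ↔
        ∀ σ i j, ψ (U.M σ i j) = M σ i j := by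
    intro ψ hψ
    have hcont : MatCont (mapHom (ψ : U.R →+* A) U.M) := U.matCont.map _ hψ
    have hbc := baseChangeAlong_ofMatrix_isEquiv (ψ : U.R →+* A) hψ U.M U.matCont hcont
    constructor
    · intro h
      have h2 : (ofMatrix (mapHom (ψ : U.R →+* A) U.M) hcont).IsEquiv (ofMatrix M hM) :=
        isEquiv_trans (isEquiv_trans (isEquiv_symm hbc) h) hequiv
      have h3 := hF.unique _ _ hcont hM (U.isNormLift.map ψ hψ) hnorm h2
      intro σ i j
      have := congrArg (fun N : GalQ →* Matrix (Fin 2) (Fin 2) A => N σ i j) h3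
      simpa using this
    · intro h
      have h3 : mapHom (ψ : U.R →+* A) U.M = M := by
        ext σ i j
        simpa using h σ i j
      have h4 : ofMatrix (mapHom (ψ : U.R →+* A) U.M) hcont = ofMatrix M hM :=
        ofMatrix_congr h3 _ _
      rw [h4] at hbc
      exact isEquiv_trans hbc (isEquiv_symm hequiv)
  have hφloc : IsLocalHom (φ : U.R →+* A) := isLocalHom_of_algHom π φ
  refine ⟨φ, ⟨hφloc, (key φ hφloc).mpr hφ⟩, ?_⟩
  rintro φ' ⟨hφ', h'⟩
  have h2 := (key φ' hφ').mp h'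
  exact U.hom_unique π φ' φ (fun σ i j => (h2 σ i j).trans (hφ σ i j).symm)

end Fermat.Agent.S53
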