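import Fermat.Statements.S57
import Fermat.Agent.S57Lib.FreeOfDepth
import Fermat.Agent.S57Lib.RegParams
import Mathlib.LinearAlgebra.Basis.Basic
import Mathlib.LinearAlgebra.FreeModule.Basic
import Mathlib.RingTheory.Ideal.Operations

set_option autoImplicit false
open Algebra Algebra.PatchingLevel

namespace Fermat.Agent.S57Lib

open RingTheory.Sequence IsLocalRing

/-- Elements of a regular sequence on a module over a local ring lie in the maximal ideal. -/
theorem mem_maximalIdeal_of_isRegular {R : Type*} [CommRing R] [IsLocalRing R]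
    {N : Type*} [AddCommGroup N] [Module R N] {zs : List R} (h : IsRegular N zs) :
    ∀ z ∈ zs, z ∈ maximalIdeal R := by
  intro z hz
  by_contra hzm
  have hu : IsUnit z := by
    rw [mem_maximalIdeal, mem_nonunits_iff, not_not] at hzm
    exact hzm
  have htop : Ideal.ofList zs = ⊤ :=
    Ideal.eq_top_of_isUnit_mem _ (Ideal.subset_span hz) hu
  apply h.top_ne_smul
  rw [htop, Submodule.top_smul]

/-- Coordinates of an element of `I • ⊤` with respect to a basis lie in `I`. -/
theorem repr_mem_of_mem_smul_top {R N ι : Type*} [CommRing R] [AddCommGroup N] [Module R N]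
    (B : Module.Basis ι R N) (I : Ideal R) (x : N) (hx : x ∈ I • (⊤ : Submodule R N)) (j : ι) :
    B.repr x j ∈ I := by
  rw [← B.span_eq, Submodule.mem_ideal_smul_span_iff_exists_sum] at hx
  obtain ⟨a, ha, rfl⟩ := hx
  have : B.repr (a.sum fun i c => c • B i) = a := by
    have h := B.repr_linearCombination a
    rwa [Finsupp.linearCombination_apply] at h
  rw [this]
  exact ha j

open TensorProduct in
/-- The patched module of a patching level with trivial relation ideal is free over the
power series ring. -/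
theorem patchingLevel_free_N
    {𝒪 : Type} [CommRing 𝒪] [IsDomain 𝒪] [IsDiscreteValuationRing 𝒪]
    {r : ℕ} {R : Type} [CommRing R] [Algebra 𝒪 R]
    {M : Type} [AddCommGroup M] [Module R M] [Nontrivial M]
    (L : Algebra.PatchingLevel 𝒪 r R M ⊥) : Module.Free (MvPowerSeries (Fin r) 𝒪) L.N := by
  classical
  have hNnt : Nontrivial L.N := by
    obtain ⟨m₁, m₂, hm⟩ := exists_pair_ne M
    obtain ⟨x₁, rfl⟩ := L.π_surjective m₁
    obtain ⟨x₂, rfl⟩ := L.π_surjective m₂
    exact ⟨x₁, x₂, fun h => hm (by rw [h])⟩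
  have hd : 0 < L.d := by
    by_contra h
    have hd0 : L.d = 0 := by omega
    have hzero : ∀ x : L.N, x = 0 := by
      intro x
      obtain ⟨c, hc⟩ := L.b_span x
      rw [hc]
      have : IsEmpty (Fin L.d) := by rw [hd0]; infer_instance
      simp
    obtain ⟨x, y, hxy⟩ := exists_pair_ne L.N
    exact hxy ((hzero x).trans (hzero y).symm)
  have : Nonempty (Fin L.d) := ⟨⟨0, hd⟩⟩
  let F : (Fin L.d → MvPowerSeries (Fin r) 𝒪) →+ L.N :=
    { toFun := fun c => ∑ i, L.φ (c i) • L.b i
      map_zero' := by simp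
      map_add' := by intro c c'; simp [add_smul, Finset.sum_add_distrib] }
  have hFinj : Function.Injective F := by
    rw [injective_iff_map_eq_zero]
    intro c hc
    have h0 := (L.b_rel c).mp hc
    funext i
    simpa using h0 i
  have hFsurj : Function.Surjective F := by
    intro x
    obtain ⟨c, hc⟩ := L.b_span x
    exact ⟨c, hc.symm⟩
  let e : (Fin L.d → MvPowerSeries (Fin r) 𝒪) ≃+ L.N := AddEquiv.ofBijective F ⟨hFinj, hFsurj⟩
  have he : ∀ (a : MvPowerSeries (Fin r) 𝒪) (c : Fin L.d → MvPowerSeries (Fin r) 𝒪),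
      e (a • c) = L.φ a • e c := by
    intro a c
    change ∑ i, L.φ ((a • c) i) • L.b i = L.φ a • ∑ i, L.φ (c i) • L.b i
    rw [Finset.smul_sum]
    refine Finset.sum_congr rfl fun i _ => ?_
    rw [Pi.smul_apply, smul_eq_mul, map_mul, mul_smul]
  have hfin : Module.Finite (MvPowerSeries (Fin r) 𝒪) L.N := by
    refine ⟨⟨Finset.univ.image L.b, ?_⟩⟩
    rw [Submodule.eq_top_iff']
    intro x
    obtain ⟨c, hc⟩ := L.b_span x
    rw [hc]
    exact Submodule.sum_mem _ fun i _ =>
      Submodule.smul_mem _ _ (Submodule.subset_span (by simp))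
  obtain ⟨xs, hlen, hreg, hmax⟩ := hasRegParams_mvPowerSeries 𝒪 r
  have hmem : ∀ x ∈ xs, x ∈ maximalIdeal (MvPowerSeries (Fin r) 𝒪) :=
    mem_maximalIdeal_of_isRegular hreg
  have hregpi : IsRegular (Fin L.d → MvPowerSeries (Fin r) 𝒪) xs := by
    refine IsRegular.of_isWeaklyRegular_of_mem_maximalIdeal
      (Fin L.d → MvPowerSeries (Fin r) 𝒪) hmem ?_
    have h1 : IsWeaklyRegular
        ((Fin L.d → MvPowerSeries (Fin r) 𝒪) ⊗[MvPowerSeries (Fin r) 𝒪]
          MvPowerSeries (Fin r) 𝒪) xs :=
      hreg.toIsWeaklyRegular.isWeaklyRegular_lTensor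
    exact (LinearEquiv.isWeaklyRegular_congr
      (TensorProduct.rid (MvPowerSeries (Fin r) 𝒪) (Fin L.d → MvPowerSeries (Fin r) 𝒪)) xs).mp h1
  have hregN : IsRegular L.N (xs.map L.φ) := by
    refine (e.isRegular_congr ?_).mp hregpi
    exact List.forall₂_map_right_iff.mpr <| List.forall₂_same.mpr fun a _ c => he a c
  exact free_of_isRegular_of_length_eq (r + 1) (MvPowerSeries (Fin r) 𝒪) xs hlen hreg hmax L.N
    (xs.map L.φ) (by simpa using hlen) hregN (mem_maximalIdeal_of_isRegular hregN)

end Fermat.Agent.S57Lib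

namespace Fermat.Agent.S57

open Fermat.Agent.S57Lib

theorem result
    {𝒪 : Type} [CommRing 𝒪] [IsDomain 𝒪] [IsDiscreteValuationRing 𝒪]
    {r : ℕ} {R : Type} [CommRing R] [Algebra 𝒪 R]
    {M : Type} [AddCommGroup M] [Module R M] [Nontrivial M]
    (L : Algebra.PatchingLevel 𝒪 r R M ⊥) :
    Module.Free R M ∧ Module.annihilator R M = ⊥ ∧
      RingHom.ker L.ψ = Ideal.span (Set.range fun i : Fin r => L.φ (MvPowerSeries.X i)) := by
  classical
  have hfree : Module.Free (MvPowerSeries (Fin r) 𝒪) L.N := patchingLevel_free_N L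
  have hNnt : Nontrivial L.N := by
    obtain ⟨m₁, m₂, hm⟩ := exists_pair_ne M
    obtain ⟨x₁, rfl⟩ := L.π_surjective m₁
    obtain ⟨x₂, rfl⟩ := L.π_surjective m₂
    exact ⟨x₁, x₂, fun h => hm (by rw [h])⟩
  let B := Module.Free.chooseBasis (MvPowerSeries (Fin r) 𝒪) L.N
  set I : Ideal (MvPowerSeries (Fin r) 𝒪) :=
    Ideal.span (Set.range fun i : Fin r => L.φ (MvPowerSeries.X i)) with hI
  have hIψ : ∀ f ∈ I, L.ψ f = 0 := by
    intro f hf
    have hle : I ≤ RingHom.ker (L.ψ : MvPowerSeries (Fin r) 𝒪 →+* R) := by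
      rw [hI, Ideal.span_le]
      rintro _ ⟨i, rfl⟩
      exact L.ψ_φ_X i
    exact hle hf
  -- `π` of a finite linear combination
  have hπsum : ∀ (s : Finset (Module.Free.ChooseBasisIndex (MvPowerSeries (Fin r) 𝒪) L.N))
      (c : Module.Free.ChooseBasisIndex (MvPowerSeries (Fin r) 𝒪) L.N → MvPowerSeries (Fin r) 𝒪),
      L.π (∑ i ∈ s, c i • B i) = ∑ i ∈ s, L.ψ (c i) • L.π (B i) := by
    intro s c
    rw [map_sum]
    exact Finset.sum_congr rfl fun i _ => L.π_smul _ _
  -- key: if `π (∑ c i • B i) = 0` then all `c i ∈ I`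
  have hkey : ∀ (s : Finset (Module.Free.ChooseBasisIndex (MvPowerSeries (Fin r) 𝒪) L.N))
      (c : Module.Free.ChooseBasisIndex (MvPowerSeries (Fin r) 𝒪) L.N → MvPowerSeries (Fin r) 𝒪),
      L.π (∑ i ∈ s, c i • B i) = 0 → ∀ i ∈ s, c i ∈ I := by
    intro s c h i hi
    have hmem := (L.ker_π _).mp h
    have hrepr := repr_mem_of_mem_smul_top B I _ hmem i
    have : B.repr (∑ j ∈ s, c j • B j) i = c i := by
      rw [map_sum, Finsupp.finsetSum_apply]
      simp only [map_smul, Module.Basis.repr_self, Finsupp.smul_apply, smul_eq_mul]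
      rw [Finset.sum_eq_single i]
      · simp
      · intro j _ hji
        simp [hji]
      · intro hi'
        exact absurd hi hi'
    rwa [this] at hrepr
  have hkey1 : ∀ (f : MvPowerSeries (Fin r) 𝒪)
      (j : Module.Free.ChooseBasisIndex (MvPowerSeries (Fin r) 𝒪) L.N),
      L.π (f • B j) = 0 → f ∈ I := by
    intro f j h
    have := hkey {j} (fun _ => f) (by simpa using h) j (Finset.mem_singleton_self j)
    exact this
  obtain ⟨j₀⟩ : Nonempty (Module.Free.ChooseBasisIndex (MvPowerSeries (Fin r) 𝒪) L.N) :=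
    B.index_nonempty
  refine ⟨?_, ?_, ?_⟩
  · -- freeness of `M` over `R`
    have hli : LinearIndependent R (fun i => L.π (B i)) := by
      rw [linearIndependent_iff']
      intro s g hg i hi
      choose c hc using fun i => L.ψ_surjective (g i)
      have h0 : L.π (∑ i ∈ s, c i • B i) = 0 := by
        rw [hπsum]
        simpa [hc] using hg
      have := hIψ _ (hkey s c h0 i hi)
      rw [← hc i]; exact this
    have hsp : ⊤ ≤ Submodule.span R (Set.range fun i => L.π (B i)) := by
      intro m _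
      obtain ⟨x, rfl⟩ := L.π_surjective m
      rw [← B.linearCombination_repr x, Finsupp.linearCombination_apply, Finsupp.sum, hπsum]
      exact Submodule.sum_mem _ fun i _ =>
        Submodule.smul_mem _ _ (Submodule.subset_span ⟨i, rfl⟩)
    exact Module.Free.of_basis (Module.Basis.mk hli hsp)
  · -- faithfulness
    rw [Submodule.eq_bot_iff]
    intro a ha
    obtain ⟨f, rfl⟩ := L.ψ_surjective a
    have h0 : L.π (f • B j₀) = 0 := by
      rw [L.π_smul]
      exact Module.mem_annihilator.mp ha _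
    exact hIψ f (hkey1 f j₀ h0)
  · -- the kernel of `ψ`
    ext f
    constructor
    · intro hf
      have hf' : L.ψ f = 0 := hf
      have h0 : L.π (f • B j₀) = 0 := by
        rw [L.π_smul, hf', zero_smul]
      exact hkey1 f j₀ h0
    · intro hf
      exact hIψ f hf

end Fermat.Agent.S57
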